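/-
PROJECT D (S48), part B, block B5, the instance, file 4: THE LATTICE SIDE (helper17).

`Lat M = parabolicHoms ℤ (Gamma1 M) ℤ` with helper18's operators `tau1Par`, `diamondPar`
(`B/Hecke/Parabolic1`).  Inputs: the commutation of the `τ_p` on `Lat M` (a hypothesis here; it is read
off the torsion in `Inst/Torsion`) and `Spec.PeriodSeam1 M` (the easy half of Eichler-Shimura).

* `sigD d : Gamma0 M` a chosen `σ_d`; `opL`, `opC : Idx M ℓ → End` on `Lat M` and on
  `parabolicHoms ℂ (Gamma1 M) ℂ`; `opL_comm`, `opC_comm`; `opC_castPar`;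
* `span_castPar` : the integral classes span the complex ones;
* `period_opS` : the period map of `PeriodSeam1` intertwines `opS` (forms) and `opC`;
* `smul_eq_zero_of_lattice` (hann) : a polynomial killing `Lat M` kills `S₂(Γ₁(M))`;
* **`exists_lattice_class`** : for `Spec.ModEigenData` there is `x : Lat M`, not divisible by `ℓ`,
  with `r x ∈ ℓ Lat M` for every `r` in the kernel of `φ ∘ θ₀`.
-/
import Mathlib
import Fermat.Agent.S48.B.Defs.Spec
import Fermat.Agent.S48.B.NonVanish
import Fermat.Agent.S48.B.Inst.Forms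
import Fermat.Agent.S48.B.Hecke.SpecExport
import Fermat.Agent.S48.B.Hecke.Parabolic1
import Fermat.Agent.S30.Lattice.BaseChange

set_option autoImplicit false
set_option linter.style.haveILetI false
set_option linter.unusedSectionVars false

noncomputable section

namespace Fermat.Agent.S48.B.Inst.Lattice

open CongruenceSubgroup MvPolynomial ModularCurve.Period TensorProduct
open Fermat.Agent.S48.B.Inst.EvalComm Fermat.Agent.S48.B.Inst.Index Fermat.Agent.S48.B.Inst.Forms
open Fermat.Agent.S48.B.Hecke.Gamma1Cosets Fermat.Agent.S48.B.Hecke.Diamond1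
open Fermat.Agent.S48.B.Hecke.Parabolic1 Fermat.Agent.S48.B.Hecke.SpecExport
open Fermat.Agent.S30.Lattice.BaseChange Fermat.Agent.S30.Hecke.DoubleCoset
open Fermat.Agent.S48.B.Defs.Spec
open scoped MatrixGroups ModularForm

local notation "Zbar" => integralClosure ℤ ℂ

variable {M ℓ : ℕ} [NeZero M]

/-- the lattice `Hom_par(Γ₁(M), ℤ)` -/
abbrev Lat (M : ℕ) : Type := parabolicHoms ℤ (Gamma1 M) ℤ

/-- the complex parabolic classes -/
abbrev LatC (M : ℕ) : Type := parabolicHoms ℂ (Gamma1 M) ℂ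

/-- a chosen `σ_d ∈ Γ₀(M)` with lower right entry `d` -/
def sigD (d : (ZMod M)ˣ) : Gamma0 M := (chi_surjective M d).choose

theorem chi_sigD (d : (ZMod M)ˣ) : chi M (sigD d) = d := (chi_surjective M d).choose_spec

/-! ### The operators -/

/-- `τ_p` and `⟨d⟩` on the lattice -/
def opL : Idx M ℓ → Module.End ℤ (Lat M)
  | Sum.inl p => tau1Par ℤ ℤ M (p.1 : ℕ) p.prime
  | Sum.inr d => diamondPar ℤ ℤ (sigD d)

/-- `τ_p` and `⟨d⟩` on the complex classes -/
def opC : Idx M ℓ → Module.End ℂ (LatC M)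
  | Sum.inl p => tau1Par ℂ ℂ M (p.1 : ℕ) p.prime
  | Sum.inr d => diamondPar ℂ ℂ (sigD d)

theorem opC_castPar (i : Idx M ℓ) (x : Lat M) :
    opC i (castPar (Gamma1 M) ℂ x) = castPar (Gamma1 M) ℂ (opL i x) := by
  rcases i with p | d
  · exact tau1Par_castPar ℂ (p.1 : ℕ) p.prime x
  · exact diamondPar_castPar ℂ (sigD d) x

/-- the commutation of the operators on the lattice, from the commutation of the `τ_p` -/
theorem opL_comm
    (hTT : ∀ p q : PrimeIdx M ℓ, tau1Par ℤ ℤ M (p.1 : ℕ) p.prime * tau1Par ℤ ℤ M (q.1 : ℕ) q.prime =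
      tau1Par ℤ ℤ M (q.1 : ℕ) q.prime * tau1Par ℤ ℤ M (p.1 : ℕ) p.prime)
    (i j : Idx M ℓ) : opL i * opL j = opL j * opL i := by
  rcases i with p | d <;> rcases j with q | e
  · exact hTT p q
  · exact tau1Par_diamondPar ℤ ℤ (p.1 : ℕ) p.prime (sigD e)
  · exact (tau1Par_diamondPar ℤ ℤ (q.1 : ℕ) q.prime (sigD d)).symm
  · exact diamondPar_comm ℤ ℤ (sigD d) (sigD e)

theorem baseChangeEquiv_opL (i : Idx M ℓ) (x : ℂ ⊗[ℤ] Lat M) :
    baseChangeEquiv (Gamma1 M) ℂ ((opL i).baseChange ℂ x) =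
      opC i (baseChangeEquiv (Gamma1 M) ℂ x) :=
  baseChangeEquiv_comm (Gamma1 M) ℂ (opL i) (opC i) (opC_castPar i) x

/-- the commutation of the operators on the complex classes -/
theorem opC_comm (hL : ∀ i j : Idx M ℓ, opL i * opL j = opL j * opL i) (i j : Idx M ℓ) :
    opC i * opC j = opC j * opC i := by
  apply LinearMap.ext
  intro y
  obtain ⟨x, rfl⟩ := (baseChangeEquiv (Gamma1 M) ℂ).surjective y
  rw [Module.End.mul_apply, Module.End.mul_apply, ← baseChangeEquiv_opL, ← baseChangeEquiv_opL,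
    ← baseChangeEquiv_opL, ← baseChangeEquiv_opL, ← LinearMap.comp_apply, ← LinearMap.comp_apply,
    ← LinearMap.baseChange_comp, ← LinearMap.baseChange_comp]
  have h := hL i j
  rw [Module.End.mul_eq_comp, Module.End.mul_eq_comp] at h
  rw [h]

/-- the integral classes span the complex classes -/
theorem span_castPar :
    Submodule.span ℂ (Set.range (castPar (Gamma1 M) ℂ)) = (⊤ : Submodule ℂ (LatC M)) := by
  have key : ∀ x : ℂ ⊗[ℤ] Lat M, baseChangeEquiv (Gamma1 M) ℂ x ∈
      Submodule.span ℂ (Set.range (castPar (Gamma1 M) ℂ)) := by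
    intro x
    induction x using TensorProduct.induction_on with
    | zero => rw [map_zero]; exact Submodule.zero_mem _
    | tmul c φ =>
      rw [baseChangeEquiv_tmul]
      exact Submodule.smul_mem _ c (Submodule.subset_span ⟨φ, rfl⟩)
    | add x x' hx hx' => rw [map_add]; exact Submodule.add_mem _ hx hx'
  rw [eq_top_iff]
  intro y _
  obtain ⟨x, rfl⟩ := (baseChangeEquiv (Gamma1 M) ℂ).surjective y
  exact key x

/-- `castPar` as an additive map -/
def castParHom (M : ℕ) : Lat M →+ LatC M where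
  toFun := castPar (Gamma1 M) ℂ
  map_zero' := Subtype.ext (AddMonoidHom.ext fun _ => Int.cast_zero)
  map_add' _ _ := Subtype.ext (AddMonoidHom.ext fun _ => Int.cast_add _ _)

/-- a polynomial killing the lattice kills the complex classes -/
theorem evalComm_opC_eq_zero (hL : ∀ i j : Idx M ℓ, opL i * opL j = opL j * opL i) (r : R1 M ℓ)
    (hr : ∀ x : Lat M, evalComm opL hL r • x = 0) (y : LatC M) :
    evalComm opC (opC_comm hL) r • y = 0 := by
  have h1 : ∀ x : Lat M, evalComm opC (opC_comm hL) r • castPar (Gamma1 M) ℂ x = 0 := by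
    intro x
    have h2 := evalComm_map (opL (M := M) (ℓ := ℓ)) hL opC (opC_comm hL) (castParHom M)
      (fun i m => by
        rw [Module.End.smul_def, Module.End.smul_def]
        exact (opC_castPar i m).symm) r x
    rw [hr x, map_zero] at h2
    exact h2.symm
  have hy : y ∈ Submodule.span ℂ (Set.range (castPar (Gamma1 M) ℂ)) := by
    rw [span_castPar]
    exact Submodule.mem_top
  rw [Module.End.smul_def]
  induction hy using Submodule.span_induction with
  | mem z hz =>
    obtain ⟨x, rfl⟩ := hz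
    exact h1 x
  | zero => exact map_zero _
  | add z z' _ _ hz hz' => rw [map_add, hz, hz', add_zero]
  | smul c z _ hz => rw [map_smul, hz, smul_zero]

/-! ### The period map -/

section Period

variable (P : CuspForm (Gamma1 M) 2 →ₗ[ℂ] (Additive (Gamma1 M) →+ ℂ))
  (hpar : ∀ f, P f ∈ parabolicHoms ℂ (Gamma1 M) ℂ)

/-- the period map with values in the parabolic classes -/
def periodHom : CuspForm (Gamma1 M) 2 →+ LatC M where
  toFun f := ⟨P f, hpar f⟩
  map_zero' := Subtype.ext (map_zero P)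
  map_add' f g := Subtype.ext (map_add P f g)

theorem coe_periodHom (f : CuspForm (Gamma1 M) 2) :
    ((periodHom P hpar f : LatC M) : Additive (Gamma1 M) →+ ℂ) = P f := rfl

theorem g0_sigma {p : ℕ} (hp : p.Prime) (hpM : ¬ p ∣ M) :
    haveI : Fact p.Prime := ⟨hp⟩
    Fermat.Agent.S48.A.Neb.G0 M ((sigma hp hpM : Gamma0 M) : SL(2, ℤ))
      ((Fermat.Agent.S48.G1.unitOfPrime p hpM : (ZMod M)ˣ) : ZMod M) := by
  haveI : Fact p.Prime := ⟨hp⟩
  have h := isSigma_coe (sigma hp hpM)
  rw [chi_sigma, coe_pUnit] at h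
  rw [Fermat.Agent.S48.G1.coe_unitOfPrime]
  exact h

theorem g0_sigD (d : (ZMod M)ˣ) :
    Fermat.Agent.S48.A.Neb.G0 M ((sigD d : Gamma0 M) : SL(2, ℤ)) (d : ZMod M) := by
  have h := isSigma_coe (sigD d)
  rw [chi_sigD] at h
  exact h

/-- **the period map intertwines the operators on forms and on classes** -/
theorem period_opS
    (hequiv : ∀ {X : Type} [Fintype X]
      (D : CosetData (Fermat.Agent.S30.Hecke.CharProduct.incl (Gamma1 M)) X)
      (f f' : CuspForm (Gamma1 M) 2), (∀ x, 0 < (D.rep x).det.val) →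
      (⇑f' = ∑ x, ⇑f ∣[(2 : ℤ)] D.rep x) → P f' = D.heckeHom (P f))
    (i : Idx M ℓ) (f : CuspForm (Gamma1 M) 2) :
    periodHom P hpar (opS i f) = opC i (periodHom P hpar f) := by
  apply Subtype.ext
  rcases i with p | d
  · haveI : Fact ((p.1 : ℕ)).Prime := ⟨p.prime⟩
    have hp0 : (p.1 : ℕ) ≠ 0 := p.prime.ne_zero
    show P (Fermat.Agent.S48.G1.heckeT (p.1 : ℕ) p.not_dvd_left f) =
      ((tau1Par ℂ ℂ M (p.1 : ℕ) p.prime (periodHom P hpar f) : LatC M) :
        Additive (Gamma1 M) →+ ℂ)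
    rw [coe_tau1Par, tau1All_neg p.prime p.not_dvd_left, coe_periodHom]
    refine hequiv (cosetT1 p.prime p.not_dvd_left) f _ ?_ ?_
    · rintro (_ | j)
      · rw [cosetT1_rep_none, map_mul, Units.val_mul]
        have h1 : ((Fermat.Agent.S30.Hecke.Gamma0Cosets.iota M
            (sigma p.prime p.not_dvd_left)).det : ℝ) = 1 := by
          show ((Matrix.SpecialLinearGroup.mapGL ℝ
            ((sigma p.prime p.not_dvd_left : Gamma0 M) : SL(2, ℤ))).det : ℝ) = 1
          rw [Matrix.SpecialLinearGroup.det_mapGL, Units.val_one]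
        rw [h1, one_mul]
        exact ModularForm.det_heckeDiagMatrix_pos _
      · rw [cosetT1_rep_some]
        exact ModularForm.det_heckeMatrix_pos _ _
    · rw [Fermat.Agent.S48.G1.coe_heckeT_eq, Fintype.sum_option, cosetT1_rep_none,
        ModularForm.heckeU_def, add_comm]
      congr 1
      · rw [SlashAction.slash_mul,
          Fermat.Agent.S48.G1.coe_diamond_of_G0 _ f (g0_sigma p.prime p.not_dvd_left)]
        rfl
      · rw [← Fin.sum_univ_eq_sum_range (fun j => ⇑f ∣[(2 : ℤ)] ModularForm.heckeMatrix (p.1 : ℕ) j)]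
        refine Finset.sum_congr rfl fun j _ => ?_
        rw [cosetT1_rep_some]
  · show P (Fermat.Agent.S48.G1.diamond d f) =
      ((diamondPar ℂ ℂ (sigD d) (periodHom P hpar f) : LatC M) : Additive (Gamma1 M) →+ ℂ)
    rw [coe_diamondPar, ← heckeHom_diamondData, coe_periodHom]
    refine hequiv (diamondData (sigD d)) f _ ?_ ?_
    · intro x
      show 0 < ((Matrix.SpecialLinearGroup.mapGL ℝ ((sigD d : Gamma0 M) : SL(2, ℤ))).det : ℝ)
      rw [Matrix.SpecialLinearGroup.det_mapGL, Units.val_one]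
      exact one_pos
    · rw [Fintype.sum_unique, Fermat.Agent.S48.G1.coe_diamond_of_G0 d f (g0_sigD d)]
      rfl

end Period

/-! ### The annihilator and the class -/

section Class

/-- **(hann)** a polynomial killing the lattice kills `S₂(Γ₁(M))` -/
theorem smul_eq_zero_of_lattice (hP : PeriodSeam1 M)
    (hL : ∀ i j : Idx M ℓ, opL i * opL j = opL j * opL i) (r : R1 M ℓ)
    (hr : ∀ x : Lat M, evalComm opL hL r • x = 0) (f : CuspForm (Gamma1 M) 2) :
    evalComm (opS (M := M) (ℓ := ℓ)) opS_comm r • f = 0 := by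
  obtain ⟨P, hpar, hinj, hequiv⟩ := hP
  apply hinj
  have h1 := evalComm_map (opS (M := M) (ℓ := ℓ)) opS_comm opC (opC_comm hL) (periodHom P hpar)
    (fun i m => by
      rw [Module.End.smul_def, Module.End.smul_def]
      exact period_opS P hpar @hequiv i m) r f
  rw [evalComm_opC_eq_zero hL r hr] at h1
  exact congrArg Subtype.val h1

/-- the lattice is finitely generated -/
theorem finite_lat (M : ℕ) [NeZero M] :
    @Module.Finite ℤ (Lat M) _ _ (AddCommGroup.toIntModule (Lat M)) := by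
  have h : Module.Finite ℤ (Lat M) := inferInstance
  convert h

variable {κ : Type} [Field κ]

/-- **The class**: for a mod `λ` eigenform there is `x` in the lattice, not divisible by `ℓ`, such
that every polynomial `r` in the kernel of `φ ∘ θ₀` maps `x` into `ℓ` times the lattice. -/
theorem exists_lattice_class [CharP κ ℓ] (hℓ : ℓ ≠ 0) {φ : Zbar →+* κ} {ψ : (ZMod M)ˣ →* Zbarˣ}
    {c : ℕ → Zbar} {h : CuspForm (Gamma1 M) 2} {a : ℕ → Zbar} (hD : ModEigenData M φ ψ c h a)
    (hP : PeriodSeam1 M) (hL : ∀ i j : Idx M ℓ, opL i * opL j = opL j * opL i) :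
    ∃ x : Lat M, (¬ ∃ y : Lat M, x = ℓ • y) ∧
      ∀ r : R1 M ℓ, φ (theta0 ψ c r) = 0 → ∃ y : Lat M, evalComm opL hL r • x = ℓ • y := by
  letI : Module (R1 M ℓ) (Lat M) := Module.compHom (Lat M) (evalComm opL hL)
  haveI := finite_lat M
  have hI : RingHom.ker (φ.comp (theta0 (ℓ := ℓ) ψ c)) ≠ ⊤ := RingHom.ker_ne_top _
  have hℓI : ((ℓ : ℕ) : R1 M ℓ) ∈ RingHom.ker (φ.comp (theta0 (ℓ := ℓ) ψ c)) := by
    rw [RingHom.mem_ker, map_natCast]
    exact CharP.cast_eq_zero κ ℓ
  obtain ⟨x, hx, hxI⟩ := Fermat.Agent.S48.B.NonVanish.exists_not_mem_smul_mem (L := Lat M) hℓ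
    (RingHom.ker (φ.comp (theta0 (ℓ := ℓ) ψ c))) hI hℓI (fun r hr => by
      rw [RingHom.mem_ker, RingHom.comp_apply]
      exact theta0_eq_zero_of_smul_eq_zero hD r (smul_eq_zero_of_lattice hP hL r hr h))
  refine ⟨x, hx, fun r hr => ?_⟩
  exact hxI r (by rw [RingHom.mem_ker, RingHom.comp_apply]; exact hr)

end Class

end Fermat.Agent.S48.B.Inst.Lattice
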