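/-
PROJECT D (S48), part B, block B5, the instance, file 5: FROM THE LATTICE TO CHARACTERS (helper17).

For a root of unity `ζ : ℂˣ` and `x : Hom(Γ₁(M), ℤ)`, the character `expChar ζ x : g ↦ ζ ^ x(g)`.

* `expChar_zero/add/neg/nsmul`, `expChar_pow_eq_one`;
* `isParChar1_expChar` : parabolic homomorphisms give parabolic characters;
* `heckeHomMul_expChar` : `D.heckeHomMul (expChar ζ x) = expChar ζ (D.heckeHom x)` for every coset
  datum (naturality of the double coset operators in the coefficients);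
* `expChar_eq_one_iff` : for `ζ` a primitive `n`-th root of unity and `x` in the lattice
  `Lat M = Hom_par(Γ₁(M), ℤ)`, `expChar ζ x = 1 ↔ x ∈ n Lat M`;
* `eq_zero_of_forall_prime_dvd` : an element of the lattice which is divisible by every prime is `0`.
-/
import Mathlib
import Fermat.Agent.S48.B.Defs.Spec
import Fermat.Agent.S48.B.Inst.Lattice

set_option autoImplicit false
set_option linter.style.haveILetI false
set_option linter.unusedSectionVars false

noncomputable section

namespace Fermat.Agent.S48.B.Inst.ExpChar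

open CongruenceSubgroup ModularCurve.Period
open Fermat.Agent.S30.Hecke.DoubleCoset
open Fermat.Agent.S48.B.Defs.Spec Fermat.Agent.S48.B.Inst.Lattice
open scoped MatrixGroups

variable {M : ℕ}

/-- the character `g ↦ ζ ^ x(g)` -/
def expChar (ζ : ℂˣ) (x : Additive (Gamma1 M) →+ ℤ) : Gamma1 M →* ℂˣ where
  toFun g := ζ ^ (x (Additive.ofMul g))
  map_one' := by rw [ofMul_one, map_zero, zpow_zero]
  map_mul' g h := by rw [ofMul_mul, map_add, zpow_add]

theorem expChar_apply (ζ : ℂˣ) (x : Additive (Gamma1 M) →+ ℤ) (g : Gamma1 M) :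
    expChar ζ x g = ζ ^ (x (Additive.ofMul g)) := rfl

theorem expChar_zero (ζ : ℂˣ) : expChar (M := M) ζ 0 = 1 := by
  refine MonoidHom.ext fun g => ?_
  rw [expChar_apply, AddMonoidHom.zero_apply, zpow_zero, MonoidHom.one_apply]

theorem expChar_add (ζ : ℂˣ) (x y : Additive (Gamma1 M) →+ ℤ) :
    expChar ζ (x + y) = expChar ζ x * expChar ζ y := by
  refine MonoidHom.ext fun g => ?_
  rw [MonoidHom.mul_apply, expChar_apply, expChar_apply, expChar_apply, AddMonoidHom.add_apply,
    zpow_add]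

theorem expChar_neg (ζ : ℂˣ) (x : Additive (Gamma1 M) →+ ℤ) :
    expChar ζ (-x) = (expChar ζ x)⁻¹ := by
  refine MonoidHom.ext fun g => ?_
  rw [MonoidHom.inv_apply, expChar_apply, expChar_apply, AddMonoidHom.neg_apply, zpow_neg]

theorem expChar_nsmul (ζ : ℂˣ) (n : ℕ) (x : Additive (Gamma1 M) →+ ℤ) :
    expChar ζ (n • x) = expChar ζ x ^ n := by
  refine MonoidHom.ext fun g => ?_
  rw [MonoidHom.pow_apply, expChar_apply, expChar_apply, AddMonoidHom.nsmul_apply, nsmul_eq_mul,
    mul_comm, zpow_mul, zpow_natCast]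

theorem expChar_pow_eq_one {ζ : ℂˣ} {n : ℕ} (hζ : ζ ^ n = 1) (x : Additive (Gamma1 M) →+ ℤ) :
    expChar ζ x ^ n = 1 := by
  refine MonoidHom.ext fun g => ?_
  rw [MonoidHom.pow_apply, expChar_apply, MonoidHom.one_apply, ← zpow_natCast, ← zpow_mul,
    mul_comm, zpow_mul, zpow_natCast, hζ, one_zpow]

theorem isParChar1_expChar (ζ : ℂˣ) {x : Additive (Gamma1 M) →+ ℤ}
    (hx : IsParabolicHom (Gamma1 M) x) : IsParChar1 (expChar ζ x) := fun γ hγ => by
  rw [expChar_apply, hx γ hγ, zpow_zero]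

/-- the exponential `ℤ → ℂˣ`, additively -/
def expHom (ζ : ℂˣ) : ℤ →+ Additive ℂˣ := zmultiplesHom (Additive ℂˣ) (Additive.ofMul ζ)

theorem expHom_apply (ζ : ℂˣ) (n : ℤ) : expHom ζ n = Additive.ofMul (ζ ^ n) := by
  show n • Additive.ofMul ζ = _
  rw [ofMul_zpow]

theorem toAdditive_expChar (ζ : ℂˣ) (x : Additive (Gamma1 M) →+ ℤ) :
    MonoidHom.toAdditive (expChar ζ x) = (expHom ζ).comp x := by
  refine AddMonoidHom.ext fun g => ?_
  obtain ⟨g, rfl⟩ := Additive.ofMul.surjective g
  rw [AddMonoidHom.comp_apply, expHom_apply]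
  rfl

/-- **naturality**: the double coset operators on characters and on homomorphisms correspond -/
theorem heckeHomMul_expChar {G : Type*} [Group G] {ι : Gamma1 M →* G} {X : Type*} [Fintype X]
    (D : CosetData ι X) (ζ : ℂˣ) (x : Additive (Gamma1 M) →+ ℤ) :
    D.heckeHomMul (expChar ζ x) = expChar ζ (D.heckeHom x) := by
  apply MonoidHom.toAdditive.injective
  rw [← CosetData.heckeHom_toAdditive, toAdditive_expChar, toAdditive_expChar,
    CosetData.comp_heckeHom]

/-- `expChar ζ x = 1` iff `x` is divisible by the order of `ζ` -/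
theorem expChar_eq_one_iff {ζ : ℂˣ} {n : ℕ} (hζ : IsPrimitiveRoot ζ n) (hn : n ≠ 0)
    (x : Lat M) :
    expChar ζ (x : Additive (Gamma1 M) →+ ℤ) = 1 ↔ ∃ y : Lat M, x = n • y := by
  have hn' : (n : ℤ) ≠ 0 := by exact_mod_cast hn
  constructor
  · intro h
    have hdvd : ∀ g : Additive (Gamma1 M), (n : ℤ) ∣ (x : Additive (Gamma1 M) →+ ℤ) g := by
      intro g
      obtain ⟨g, rfl⟩ := Additive.ofMul.surjective g
      have h1 : ζ ^ ((x : Additive (Gamma1 M) →+ ℤ) (Additive.ofMul g)) = 1 := by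
        rw [← expChar_apply, h, MonoidHom.one_apply]
      exact (hζ.zpow_eq_one_iff_dvd _).mp h1
    -- the quotient homomorphism
    let y : Additive (Gamma1 M) →+ ℤ :=
      { toFun := fun g => (x : Additive (Gamma1 M) →+ ℤ) g / n
        map_zero' := by rw [map_zero, Int.zero_ediv]
        map_add' := fun g g' => by
          rw [map_add, Int.add_ediv_of_dvd_left (hdvd g)] }
    have hy : ∀ g, (n : ℤ) * y g = (x : Additive (Gamma1 M) →+ ℤ) g := fun g =>
      Int.mul_ediv_cancel' (hdvd g)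
    have hypar : IsParabolicHom (Gamma1 M) y := by
      intro γ hγ
      have h1 := hy (Additive.ofMul γ)
      rw [x.2 γ hγ] at h1
      exact (mul_eq_zero.mp h1).resolve_left hn'
    refine ⟨⟨y, hypar⟩, Subtype.ext (AddMonoidHom.ext fun g => ?_)⟩
    rw [Submodule.coe_smul_of_tower, AddMonoidHom.nsmul_apply, nsmul_eq_mul]
    exact (hy g).symm
  · rintro ⟨y, rfl⟩
    rw [Submodule.coe_smul_of_tower, expChar_nsmul]
    exact expChar_pow_eq_one hζ.pow_eq_one _

/-- an element of the lattice divisible by every prime vanishes -/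
theorem eq_zero_of_forall_prime_dvd (x : Lat M)
    (h : ∀ q : ℕ, q.Prime → ∃ y : Lat M, x = q • y) : x = 0 := by
  refine Subtype.ext (AddMonoidHom.ext fun g => ?_)
  rw [Submodule.coe_zero, AddMonoidHom.zero_apply]
  by_contra hne
  obtain ⟨q, hlt, hq⟩ := Nat.exists_infinite_primes
    (((x : Additive (Gamma1 M) →+ ℤ) g).natAbs + 1)
  obtain ⟨y, hy⟩ := h q hq
  have h1 : (x : Additive (Gamma1 M) →+ ℤ) g = (q : ℤ) * (y : Additive (Gamma1 M) →+ ℤ) g := by
    rw [hy, Submodule.coe_smul_of_tower, AddMonoidHom.nsmul_apply, nsmul_eq_mul]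
  have h2 : (q : ℤ) ∣ (x : Additive (Gamma1 M) →+ ℤ) g := ⟨_, h1⟩
  have h3 := Int.natAbs_le_of_dvd_ne_zero h2 hne   -- q ≤ |x g|
  rw [Int.natAbs_natCast] at h3
  omega

end Fermat.Agent.S48.B.Inst.ExpChar
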