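/-
PROJECT D (S48), part B, block B5, the instance, file 6: CONSEQUENCES OF THE DICTIONARY (helper17).

From `hdict : Spec.PhiDict1 M ι` (twin of my `S30/Final/PhiMap`, in relation form):

* `isPhiOf1_zero`, `isPhiOf1_nsmul`, `isPhiOf1_neg`, `isPhiOf1_sub`;
* `pow_eq_one_of_nsmul_eq_zero`, `nsmul_eq_zero_of_pow_eq_one`, `exists_nsmul_eq_zero`;
* `eq_of_isPhiOf1` : the dictionary is injective;
* `finite_torsion` : the `n`-torsion of `J1 M` is finite (`Γ₁(M)` is finitely generated);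
* `exists_isPhiOf1_expChar` : every class `x` of the lattice has a point `v` of `J1 M`, killed by
  `n`, with `Φ(v) = ζ ^ x`.
-/
import Mathlib
import Fermat.Agent.S48.B.Defs.Spec
import Fermat.Agent.S48.B.Inst.ExpChar
import Fermat.Agent.S48.B.Hecke.Parabolic1
import Fermat.Agent.S30.Final.PhiMap

set_option autoImplicit false
set_option linter.style.haveILetI false
set_option linter.unusedSectionVars false

noncomputable section

namespace Fermat.Agent.S48.B.Inst.Dict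

open CongruenceSubgroup ModularCurve.Period
open Fermat.Agent.S48.B.Defs.Model Fermat.Agent.S48.B.Defs.Spec
open Fermat.Agent.S48.B.Inst.Lattice Fermat.Agent.S48.B.Inst.ExpChar
open Fermat.Agent.S48.B.Hecke.Parabolic1
open scoped MatrixGroups

local notation "Kb" => AlgebraicClosure ℚ

variable {M : ℕ} [NeZero M] {ι : Kb →+* ℂ}

/-! ### the group of characters (term-mode forms of the group laws) -/

section Hom

omit [NeZero M]

theorem hom_pow_zero (ψ : Gamma1 M →* ℂˣ) : ψ ^ 0 = 1 := pow_zero ψ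

theorem hom_pow_succ (ψ : Gamma1 M →* ℂˣ) (k : ℕ) : ψ ^ (k + 1) = ψ ^ k * ψ := pow_succ ψ k

theorem hom_mul_inv (ψ : Gamma1 M →* ℂˣ) : ψ * ψ⁻¹ = 1 := mul_inv_cancel ψ

theorem hom_eq_one_of_eq_mul_self {ψ : Gamma1 M →* ℂˣ} (h : ψ = ψ * ψ) : ψ = 1 := by
  refine MonoidHom.ext fun g => ?_
  have h1 := congrArg (fun χ : Gamma1 M →* ℂˣ => χ g) h
  rw [MonoidHom.one_apply]
  have h2 : ψ g * 1 = ψ g * ψ g := by rw [mul_one]; exact h1
  exact (mul_left_cancel h2).symm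

theorem hom_eq_inv_of_mul_eq_one {ψ ψ' : Gamma1 M →* ℂˣ} (h : ψ * ψ' = 1) : ψ' = ψ⁻¹ := by
  refine MonoidHom.ext fun g => ?_
  have h1 := congrArg (fun χ : Gamma1 M →* ℂˣ => χ g) h
  rw [MonoidHom.inv_apply]
  exact eq_inv_of_mul_eq_one_right h1

end Hom

section Basics

variable (hdict : PhiDict1 M ι)

include hdict

theorem isPhiOf1_zero : IsPhiOf1 M ι 0 1 := by
  obtain ⟨ψ, hψ⟩ := hdict.exists_of_torsion 0 ⟨1, one_ne_zero, smul_zero _⟩
  have h1 := hdict.add _ _ _ _ hψ hψ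
  rw [add_zero] at h1
  have h2 : ψ = ψ * ψ := hdict.unique _ _ _ hψ h1
  have h3 : ψ = 1 := hom_eq_one_of_eq_mul_self h2
  rw [h3] at hψ
  exact hψ

theorem isPhiOf1_nsmul {v : J1 M} {ψ : Gamma1 M →* ℂˣ} (h : IsPhiOf1 M ι v ψ) (n : ℕ) :
    IsPhiOf1 M ι (n • v) (ψ ^ n) := by
  induction n with
  | zero => rw [zero_nsmul, hom_pow_zero]; exact isPhiOf1_zero hdict
  | succ k ih => rw [succ_nsmul, hom_pow_succ]; exact hdict.add _ _ _ _ ih h

theorem pow_eq_one_of_nsmul_eq_zero {v : J1 M} {ψ : Gamma1 M →* ℂˣ} (h : IsPhiOf1 M ι v ψ)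
    {n : ℕ} (hn : n • v = 0) : ψ ^ n = 1 := by
  have h1 := isPhiOf1_nsmul hdict h n
  rw [hn] at h1
  exact hdict.unique _ _ _ h1 (isPhiOf1_zero hdict)

theorem nsmul_eq_zero_of_pow_eq_one {v : J1 M} {ψ : Gamma1 M →* ℂˣ} (h : IsPhiOf1 M ι v ψ)
    {n : ℕ} (hn : ψ ^ n = 1) : n • v = 0 := by
  have h1 := isPhiOf1_nsmul hdict h n
  rw [hn] at h1
  exact hdict.injective _ h1

theorem exists_nsmul_eq_zero {v : J1 M} {ψ : Gamma1 M →* ℂˣ} (h : IsPhiOf1 M ι v ψ) :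
    ∃ n : ℕ, n ≠ 0 ∧ n • v = 0 := by
  obtain ⟨n, hn, hψ⟩ := isOfFinOrder_iff_pow_eq_one.mp (hdict.mem _ _ h).2
  exact ⟨n, hn.ne', nsmul_eq_zero_of_pow_eq_one hdict h hψ⟩

theorem isPhiOf1_neg {v : J1 M} {ψ : Gamma1 M →* ℂˣ} (h : IsPhiOf1 M ι v ψ) :
    IsPhiOf1 M ι (-v) ψ⁻¹ := by
  obtain ⟨n, hn, hv⟩ := exists_nsmul_eq_zero hdict h
  obtain ⟨ψ', hψ'⟩ := hdict.exists_of_torsion (-v) ⟨n, hn, by rw [neg_nsmul, hv, neg_zero]⟩
  have h1 := hdict.add _ _ _ _ h hψ'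
  rw [add_neg_cancel] at h1
  have h2 : ψ * ψ' = 1 := hdict.unique _ _ _ h1 (isPhiOf1_zero hdict)
  have h3 : ψ' = ψ⁻¹ := hom_eq_inv_of_mul_eq_one h2
  rw [h3] at hψ'
  exact hψ'

theorem isPhiOf1_sub {v v' : J1 M} {ψ ψ' : Gamma1 M →* ℂˣ} (h : IsPhiOf1 M ι v ψ)
    (h' : IsPhiOf1 M ι v' ψ') : IsPhiOf1 M ι (v - v') (ψ * ψ'⁻¹) := by
  rw [sub_eq_add_neg]
  exact hdict.add _ _ _ _ h (isPhiOf1_neg hdict h')

/-- the dictionary is injective -/
theorem eq_of_isPhiOf1 {v v' : J1 M} {ψ : Gamma1 M →* ℂˣ} (h : IsPhiOf1 M ι v ψ)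
    (h' : IsPhiOf1 M ι v' ψ) : v = v' := by
  have h1 := isPhiOf1_sub hdict h h'
  rw [hom_mul_inv] at h1
  exact sub_eq_zero.mp (hdict.injective _ h1)

/-- **the `n`-torsion of `J1 M` is finite** -/
theorem finite_torsion {n : ℕ} (hn : n ≠ 0) : {v : J1 M | n • v = 0}.Finite := by
  classical
  have hfin := Fermat.Agent.S30.Final.PhiMap.finite_monoidHom_pow_eq_one (Γ := Gamma1 M) hn
  haveI : Finite {ψ : Gamma1 M →* ℂˣ | ψ ^ n = 1} := hfin
  have hex : ∀ v : {v : J1 M | n • v = 0}, ∃ ψ, IsPhiOf1 M ι (v : J1 M) ψ := fun v =>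
    hdict.exists_of_torsion _ ⟨n, hn, v.2⟩
  let g : {v : J1 M | n • v = 0} → {ψ : Gamma1 M →* ℂˣ | ψ ^ n = 1} := fun v =>
    ⟨(hex v).choose, pow_eq_one_of_nsmul_eq_zero hdict (hex v).choose_spec v.2⟩
  have hg : Function.Injective g := by
    intro v v' hvv'
    have h1 : (hex v).choose = (hex v').choose := congrArg Subtype.val hvv'
    have h2 := (hex v).choose_spec
    rw [h1] at h2
    exact Subtype.ext (eq_of_isPhiOf1 hdict h2 (hex v').choose_spec)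
  haveI : Finite {v : J1 M | n • v = 0} := Finite.of_injective g hg
  exact Set.toFinite _

/-- **from the lattice to the torsion**: every class `x` has a point `v` with `Φ(v) = ζ ^ x` -/
theorem exists_isPhiOf1_expChar {ζ : ℂˣ} {n : ℕ} (hn : n ≠ 0) (hζ : ζ ^ n = 1) (x : Lat M) :
    ∃ v : J1 M, n • v = 0 ∧ IsPhiOf1 M ι v (expChar ζ (x : Additive (Gamma1 M) →+ ℤ)) := by
  have h1 : expChar ζ (x : Additive (Gamma1 M) →+ ℤ) ∈ charGroup1 M :=
    isParChar1_expChar ζ x.2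
  have h2 : expChar ζ (x : Additive (Gamma1 M) →+ ℤ) ^ n = 1 := expChar_pow_eq_one hζ _
  have h3 : IsOfFinOrder (expChar ζ (x : Additive (Gamma1 M) →+ ℤ)) :=
    isOfFinOrder_iff_pow_eq_one.mpr ⟨n, Nat.pos_of_ne_zero hn, h2⟩
  obtain ⟨v, hv⟩ := hdict.surj _ h1 h3
  exact ⟨v, nsmul_eq_zero_of_pow_eq_one hdict hv h2, hv⟩

end Basics

end Fermat.Agent.S48.B.Inst.Dict
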