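/-
PROJECT D (S48), part B, block B5, the instance, file 7: THE TORSION OF `J1 M` (helper17).

Inputs: the dictionary `PhiDict1 M ι` with its equivariance `PhiHecke1`, `PhiDiamond1`; the reduction
interface `HasReduction1All M P` (helper8's `Defs/Reduction`); `GaloisCommSeam1 M`.

* `heckeHomMul_TD`, `heckeHomMul_DD` : the operators on characters commute (helper18's additive
  statements, transported);
* `isPhiOf1_hecke`, `isPhiOf1_diamond` : `Φ(T_p v) = τ_p Φ(v)`, `Φ(⟨d⟩ v) = ⟨d⟩ Φ(v)` for the coset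
  data `cosetT1`, `diamondData`;
* `diamond_diamond`, `hecke_diamond` : commutations on the torsion of `J1 M`;
* `inertia_smul_eq`, **`hecke_eq_frob`** : on `P`-power torsion, inertia at `p ∤ M`, `p ≠ P` acts
  trivially and `T_p v = σ v + p ⟨p⟩ σ⁻¹ v` for every Frobenius element `σ` at `p`;
  `frobenius_quadratic` : `σ² v - T_p σ v + p ⟨p⟩ v = 0`;
* `hecke_hecke` : `T_p T_q v = T_q T_p v` on `P`-power torsion when `p ≠ P`;
* **`tau1Par_comm`** : the `τ_p` (`p ∤ M`) commute on the lattice `Lat M` (read off the `P`-torsion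
  for all primes `P`).
-/
import Mathlib
import Fermat.Agent.S48.B.Defs.Spec
import Fermat.Agent.S48.B.Inst.Dict
import Fermat.Agent.S48.B.Hecke.SpecExport
import Fermat.Agent.Lib.FrobeniusExists

set_option autoImplicit false
set_option linter.style.haveILetI false
set_option linter.unusedSectionVars false

noncomputable section

namespace Fermat.Agent.S48.B.Inst.Torsion

open CongruenceSubgroup ModularCurve.Period
open Fermat.Agent.S30.Hecke.DoubleCoset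
open Fermat.Agent.S48.B.Defs.Model Fermat.Agent.S48.B.Defs.Reduction Fermat.Agent.S48.B.Defs.Spec
open Fermat.Agent.S48.B.Inst.Index Fermat.Agent.S48.B.Inst.Lattice
open Fermat.Agent.S48.B.Inst.ExpChar Fermat.Agent.S48.B.Inst.Dict
open Fermat.Agent.S48.B.Hecke.Gamma1Cosets Fermat.Agent.S48.B.Hecke.Diamond1
open Fermat.Agent.S48.B.Hecke.Parabolic1 Fermat.Agent.S48.B.Hecke.SpecExport
open scoped MatrixGroups

local notation "Kb" => AlgebraicClosure ℚ
local notation "GQ" => (AlgebraicClosure ℚ ≃ₐ[ℚ] AlgebraicClosure ℚ)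

variable {M : ℕ} [NeZero M] {ι : Kb →+* ℂ}

/-! ### torsion bookkeeping -/

section Basic

variable {J : Type*} [AddCommGroup J]

theorem isTorsion_map {J' : Type*} [AddCommGroup J'] {P : ℕ} (f : J →+ J') {x : J}
    (hx : ∃ n : ℕ, P ^ n • x = 0) : ∃ n : ℕ, P ^ n • f x = 0 := by
  obtain ⟨n, hn⟩ := hx
  exact ⟨n, by rw [← map_nsmul, hn, map_zero]⟩

theorem isTorsion_add {P : ℕ} {x y : J} (hx : ∃ n : ℕ, P ^ n • x = 0)
    (hy : ∃ n : ℕ, P ^ n • y = 0) : ∃ n : ℕ, P ^ n • (x + y) = 0 := by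
  obtain ⟨n, hn⟩ := hx
  obtain ⟨m, hm⟩ := hy
  refine ⟨n + m, ?_⟩
  have h1 : P ^ (n + m) • x = 0 := by rw [pow_add, mul_nsmul, hn, nsmul_zero]
  have h2 : P ^ (n + m) • y = 0 := by rw [pow_add, mul_comm, mul_nsmul, hm, nsmul_zero]
  rw [nsmul_add, h1, h2, add_zero]

theorem isTorsion_neg {P : ℕ} {x : J} (hx : ∃ n : ℕ, P ^ n • x = 0) :
    ∃ n : ℕ, P ^ n • (-x) = 0 := by
  obtain ⟨n, hn⟩ := hx
  exact ⟨n, by rw [neg_nsmul, hn, neg_zero]⟩

theorem isTorsion_sub {P : ℕ} {x y : J} (hx : ∃ n : ℕ, P ^ n • x = 0)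
    (hy : ∃ n : ℕ, P ^ n • y = 0) : ∃ n : ℕ, P ^ n • (x - y) = 0 := by
  rw [sub_eq_add_neg]
  exact isTorsion_add hx (isTorsion_neg hy)

theorem isTorsion_nsmul {P : ℕ} (m : ℕ) {x : J} (hx : ∃ n : ℕ, P ^ n • x = 0) :
    ∃ n : ℕ, P ^ n • (m • x) = 0 := by
  obtain ⟨n, hn⟩ := hx
  exact ⟨n, by rw [← mul_nsmul, mul_comm, mul_nsmul, hn, nsmul_zero]⟩

theorem isTorsion_smul {P : ℕ} (σ : GQ) {x : J1 M} (hx : ∃ n : ℕ, P ^ n • x = 0) :
    ∃ n : ℕ, P ^ n • (σ • x) = 0 :=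
  isTorsion_map (DistribSMul.toAddMonoidHom (J1 M) σ) hx

theorem isTorsion_end {P : ℕ} (f : Module.End ℤ (J1 M)) {x : J1 M}
    (hx : ∃ n : ℕ, P ^ n • x = 0) : ∃ n : ℕ, P ^ n • f x = 0 :=
  isTorsion_map f.toAddMonoidHom hx

theorem exists_ne_zero_of_isTorsion {P : ℕ} (hP : P ≠ 0) {x : J}
    (hx : ∃ n : ℕ, P ^ n • x = 0) : ∃ n : ℕ, n ≠ 0 ∧ n • x = 0 := by
  obtain ⟨n, hn⟩ := hx
  exact ⟨P ^ n, pow_ne_zero n hP, hn⟩

end Basic

/-! ### the operators on characters commute -/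

section Characters

omit [NeZero M]

theorem toAdditive_heckeHomMul_diamondData (s : Gamma0 M) (ψ : Gamma1 M →* ℂˣ) :
    MonoidHom.toAdditive ((diamondData s).heckeHomMul ψ) =
      diamondHom s (MonoidHom.toAdditive ψ) := by
  rw [← CosetData.heckeHom_toAdditive, heckeHom_diamondData]

theorem toAdditive_heckeHomMul_cosetT1 {p : ℕ} (hp : p.Prime) (hpM : ¬ p ∣ M)
    (ψ : Gamma1 M →* ℂˣ) :
    MonoidHom.toAdditive ((cosetT1 hp hpM).heckeHomMul ψ) =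
      tau1All M p hp (MonoidHom.toAdditive ψ) := by
  rw [← CosetData.heckeHom_toAdditive, tau1All_neg hp hpM]
  rfl

theorem heckeHomMul_TD {p : ℕ} (hp : p.Prime) (hpM : ¬ p ∣ M) (s : Gamma0 M)
    (ψ : Gamma1 M →* ℂˣ) :
    (cosetT1 hp hpM).heckeHomMul ((diamondData s).heckeHomMul ψ) =
      (diamondData s).heckeHomMul ((cosetT1 hp hpM).heckeHomMul ψ) := by
  apply MonoidHom.toAdditive.injective
  rw [toAdditive_heckeHomMul_cosetT1, toAdditive_heckeHomMul_diamondData,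
    toAdditive_heckeHomMul_diamondData, toAdditive_heckeHomMul_cosetT1, tau1All_diamondHom]

theorem heckeHomMul_DD (s s' : Gamma0 M) (ψ : Gamma1 M →* ℂˣ) :
    (diamondData s).heckeHomMul ((diamondData s').heckeHomMul ψ) =
      (diamondData s').heckeHomMul ((diamondData s).heckeHomMul ψ) := by
  apply MonoidHom.toAdditive.injective
  rw [toAdditive_heckeHomMul_diamondData, toAdditive_heckeHomMul_diamondData,
    toAdditive_heckeHomMul_diamondData, toAdditive_heckeHomMul_diamondData, diamondHom_comm]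

end Characters

/-! ### the dictionary and the operators -/

section Equivariance

variable (hhecke : PhiHecke1 M ι) (hdia : PhiDiamond1 M ι)

include hhecke in
theorem isPhiOf1_hecke (p : Nat.Primes) (hpM : ¬ (p : ℕ) ∣ M) {v : J1 M}
    {ψ : Gamma1 M →* ℂˣ} (h : IsPhiOf1 M ι v ψ) :
    IsPhiOf1 M ι (hecke1Bar M p v) ((cosetT1 p.2 hpM).heckeHomMul ψ) :=
  hhecke p hpM (cosetT1 p.2 hpM) (isHeckeData1_cosetT1 p.2 hpM) v ψ h

include hdia in
theorem isPhiOf1_diamond (s : Gamma0 M) {v : J1 M} {ψ : Gamma1 M →* ℂˣ}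
    (h : IsPhiOf1 M ι v ψ) :
    IsPhiOf1 M ι (diamond1Bar M (chi M s) v) ((diamondData s).heckeHomMul ψ) :=
  hdia (chi M s) (diamondData s) (isDiamondData1_diamondData s) v ψ h

variable (hdict : PhiDict1 M ι)

include hdict hdia in
/-- the diamond operators commute on the torsion -/
theorem diamond_diamond (d e : (ZMod M)ˣ) {v : J1 M} (hv : ∃ n : ℕ, n ≠ 0 ∧ n • v = 0) :
    diamond1Bar M d (diamond1Bar M e v) = diamond1Bar M e (diamond1Bar M d v) := by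
  obtain ⟨ψ, hψ⟩ := hdict.exists_of_torsion v hv
  have h1 := isPhiOf1_diamond hdia (sigD d) (isPhiOf1_diamond hdia (sigD e) hψ)
  have h2 := isPhiOf1_diamond hdia (sigD e) (isPhiOf1_diamond hdia (sigD d) hψ)
  rw [chi_sigD, chi_sigD] at h1 h2
  rw [heckeHomMul_DD] at h1
  exact eq_of_isPhiOf1 hdict h1 h2

include hdict hdia hhecke in
/-- `T_p` commutes with the diamond operators on the torsion -/
theorem hecke_diamond (p : Nat.Primes) (hpM : ¬ (p : ℕ) ∣ M) (d : (ZMod M)ˣ) {v : J1 M}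
    (hv : ∃ n : ℕ, n ≠ 0 ∧ n • v = 0) :
    hecke1Bar M p (diamond1Bar M d v) = diamond1Bar M d (hecke1Bar M p v) := by
  obtain ⟨ψ, hψ⟩ := hdict.exists_of_torsion v hv
  have h1 := isPhiOf1_hecke hhecke p hpM (isPhiOf1_diamond hdia (sigD d) hψ)
  have h2 := isPhiOf1_diamond hdia (sigD d) (isPhiOf1_hecke hhecke p hpM hψ)
  rw [chi_sigD] at h1 h2
  rw [heckeHomMul_TD] at h1
  exact eq_of_isPhiOf1 hdict h1 h2

end Equivariance

/-! ### Eichler-Shimura on the torsion -/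

section ES

variable {P : ℕ}

/-- inertia at `p ∤ M`, `p ≠ P` acts trivially on the `P`-power torsion -/
theorem inertia_smul_eq (hred : HasReduction1All M P) {p : ℕ} (hp : p.Prime) (hpM : p.Coprime M)
    (hpP : p ≠ P) (A : ValuationSubring Kb) (hA : A.LiesOverPrime p) {σ : GQ}
    (hσ : σ ∈ A.inertiaSubgroupIn ℚ) {v : J1 M} (hv : ∃ n : ℕ, P ^ n • v = 0) : σ • v = v := by
  obtain ⟨X, _, red, Fb, V, Dm, -, -, -, -, R1, -, -, R4⟩ := hred p hp hpM hpP A hA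
  have h0 : σ • v - v = 0 := by
    refine R4 _ (isTorsion_sub (isTorsion_smul σ hv) hv) ?_
    rw [map_sub, R1 σ hσ, sub_self]
  exact sub_eq_zero.mp h0

/-- **Eichler-Shimura**: on the `P`-power torsion, `T_p v = σ v + p ⟨p⟩ σ⁻¹ v` for every Frobenius
element `σ` at `p` (`p ∤ M`, `p ≠ P`). -/
theorem hecke_eq_frob (hred : HasReduction1All M P) (p : Nat.Primes) (hpM : (p : ℕ).Coprime M)
    (hpP : (p : ℕ) ≠ P) (A : ValuationSubring Kb) (hA : A.LiesOverPrime (p : ℕ)) {σ : GQ}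
    (hσ : A.IsFrobeniusAt σ (p : ℕ)) {v : J1 M} (hv : ∃ n : ℕ, P ^ n • v = 0) :
    hecke1Bar M p v =
      σ • v + (p : ℕ) • diamond1Bar M (ZMod.unitOfCoprime (p : ℕ) hpM) (σ⁻¹ • v) := by
  obtain ⟨X, _, red, Fb, V, Dm, hV, hDF, -, R0, -, R2, R3, R4⟩ := hred (p : ℕ) p.2 hpM hpP A hA
  have hv' : ∃ n : ℕ, P ^ n • (σ⁻¹ • v) = 0 := isTorsion_smul σ⁻¹ hv
  have h0 : hecke1Bar M p v -
      (σ • v + (p : ℕ) • diamond1Bar M (ZMod.unitOfCoprime (p : ℕ) hpM) (σ⁻¹ • v)) = 0 := by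
    refine R4 _ (isTorsion_sub (isTorsion_end _ hv) (isTorsion_add (isTorsion_smul σ hv)
      (isTorsion_nsmul _ (isTorsion_end _ hv')))) ?_
    have h1 : red v = Fb (red (σ⁻¹ • v)) := by
      rw [← R2 σ hσ, smul_inv_smul]
    have h2 : red (hecke1Bar M p v) = Fb (red v) + V (Dm (red v)) := R3 v
    rw [map_sub, map_add, map_nsmul, h2, R2 σ hσ, R0]
    have h3 : V (Dm (red v)) = (p : ℕ) • Dm (red (σ⁻¹ • v)) := by
      rw [h1, hDF, hV]
    rw [h3, sub_self]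
  exact sub_eq_zero.mp h0

/-- the Eichler-Shimura quadratic relation on the `P`-power torsion -/
theorem frobenius_quadratic (hred : HasReduction1All M P) (p : Nat.Primes)
    (hpM : (p : ℕ).Coprime M) (hpP : (p : ℕ) ≠ P) (A : ValuationSubring Kb)
    (hA : A.LiesOverPrime (p : ℕ)) {σ : GQ} (hσ : A.IsFrobeniusAt σ (p : ℕ)) {v : J1 M}
    (hv : ∃ n : ℕ, P ^ n • v = 0) :
    σ • σ • v - hecke1Bar M p (σ • v) +
      (p : ℕ) • diamond1Bar M (ZMod.unitOfCoprime (p : ℕ) hpM) v = 0 := by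
  rw [hecke_eq_frob hred p hpM hpP A hA hσ (isTorsion_smul σ hv), inv_smul_smul]
  abel

end ES

/-! ### commutation of the Hecke operators -/

section Comm

variable (hdict : PhiDict1 M ι) (hhecke : PhiHecke1 M ι) (hdia : PhiDiamond1 M ι)
  (hgal : GaloisCommSeam1 M)

include hdict hhecke hdia hgal in
/-- **`T_p T_q = T_q T_p` on the `P`-power torsion** when `p ≠ P` (`p, q ∤ M`) -/
theorem hecke_hecke {P : ℕ} (hP : P ≠ 0) (hred : HasReduction1All M P) (p q : Nat.Primes)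
    (hpM : ¬ (p : ℕ) ∣ M) (hqM : ¬ (q : ℕ) ∣ M) (hpP : (p : ℕ) ≠ P) {v : J1 M}
    (hv : ∃ n : ℕ, P ^ n • v = 0) :
    hecke1Bar M p (hecke1Bar M q v) = hecke1Bar M q (hecke1Bar M p v) := by
  have hpM' : (p : ℕ).Coprime M := (Nat.Prime.coprime_iff_not_dvd p.2).mpr hpM
  obtain ⟨A, hA⟩ := Fermat.Agent.Lib.FrobeniusExists.exists_valuationSubring_liesOverPrime
    (L := Kb) (p : ℕ) p.2
  obtain ⟨σ, hσ⟩ :=
    Fermat.Agent.Lib.FrobeniusExists.exists_isFrobeniusAt_algebraicClosure A p.2 hA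
  have hv' : ∃ n : ℕ, n ≠ 0 ∧ n • (σ⁻¹ • v) = 0 :=
    exists_ne_zero_of_isTorsion hP (isTorsion_smul σ⁻¹ hv)
  rw [hecke_eq_frob hred p hpM' hpP A hA hσ (isTorsion_end _ hv),
    hecke_eq_frob hred p hpM' hpP A hA hσ hv, map_add, map_nsmul, hgal.1 q σ v,
    hecke_diamond hhecke hdia hdict q hqM _ hv', hgal.1 q σ⁻¹ v]

omit [NeZero M] in
theorem exists_primitiveRoot_units {n : ℕ} (hn : n ≠ 0) : ∃ ζ : ℂˣ, IsPrimitiveRoot ζ n := by
  have h := Complex.isPrimitiveRoot_exp n hn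
  exact ⟨(h.isUnit hn).unit, IsPrimitiveRoot.coe_units_iff.mp h⟩

include hhecke in
theorem isPhiOf1_tau1Par (ζ : ℂˣ) (r : Nat.Primes) (hrM : ¬ (r : ℕ) ∣ M) {w : J1 M} {y : Lat M}
    (h : IsPhiOf1 M ι w (expChar ζ (y : Additive (Gamma1 M) →+ ℤ))) :
    IsPhiOf1 M ι (hecke1Bar M r w)
      (expChar ζ ((tau1Par ℤ ℤ M (r : ℕ) r.2 y : Lat M) : Additive (Gamma1 M) →+ ℤ)) := by
  have h1 := isPhiOf1_hecke hhecke r hrM h
  rw [heckeHomMul_expChar] at h1
  rw [coe_tau1Par, tau1All_neg r.2 hrM]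
  exact h1

include hdia in
theorem isPhiOf1_diamondPar (ζ : ℂˣ) (s : Gamma0 M) {w : J1 M} {y : Lat M}
    (h : IsPhiOf1 M ι w (expChar ζ (y : Additive (Gamma1 M) →+ ℤ))) :
    IsPhiOf1 M ι (diamond1Bar M (chi M s) w)
      (expChar ζ ((diamondPar ℤ ℤ s y : Lat M) : Additive (Gamma1 M) →+ ℤ)) := by
  have h1 := isPhiOf1_diamond hdia s h
  rw [heckeHomMul_expChar, heckeHom_diamondData] at h1
  exact h1

include hdict hhecke hdia hgal in
/-- **the `τ_p` (`p ∤ M`) commute on the lattice** -/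
theorem tau1Par_comm (hred : ∀ P : ℕ, P.Prime → HasReduction1All M P) {p q : ℕ} (hp : p.Prime)
    (hq : q.Prime) (hpM : ¬ p ∣ M) (hqM : ¬ q ∣ M) :
    tau1Par ℤ ℤ M p hp * tau1Par ℤ ℤ M q hq = tau1Par ℤ ℤ M q hq * tau1Par ℤ ℤ M p hp := by
  by_cases hpq : p = q
  · subst hpq
    rfl
  apply LinearMap.ext
  intro x
  rw [Module.End.mul_apply, Module.End.mul_apply, ← sub_eq_zero]
  apply eq_zero_of_forall_prime_dvd
  intro P hP
  obtain ⟨ζ, hζ⟩ := exists_primitiveRoot_units hP.ne_zero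
  rw [← expChar_eq_one_iff hζ hP.ne_zero]
  obtain ⟨v, hPv, hv⟩ := exists_isPhiOf1_expChar hdict hP.ne_zero hζ.pow_eq_one x
  have hvt : ∃ n : ℕ, P ^ n • v = 0 := ⟨1, by rw [pow_one]; exact hPv⟩
  have h1 := isPhiOf1_tau1Par hhecke ζ ⟨p, hp⟩ hpM (isPhiOf1_tau1Par hhecke ζ ⟨q, hq⟩ hqM hv)
  have h2 := isPhiOf1_tau1Par hhecke ζ ⟨q, hq⟩ hqM (isPhiOf1_tau1Par hhecke ζ ⟨p, hp⟩ hpM hv)
  have hcomm : hecke1Bar M ⟨p, hp⟩ (hecke1Bar M ⟨q, hq⟩ v) =
      hecke1Bar M ⟨q, hq⟩ (hecke1Bar M ⟨p, hp⟩ v) := by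
    by_cases hpP : p = P
    · have hqP : q ≠ P := fun h => hpq (hpP.trans h.symm)
      exact (hecke_hecke hdict hhecke hdia hgal hP.ne_zero (hred P hP) ⟨q, hq⟩ ⟨p, hp⟩ hqM hpM
        hqP hvt).symm
    · exact hecke_hecke hdict hhecke hdia hgal hP.ne_zero (hred P hP) ⟨p, hp⟩ ⟨q, hq⟩ hpM hqM
        hpP hvt
  rw [hcomm] at h1
  have h3 := hdict.unique _ _ _ h1 h2
  rw [Submodule.coe_sub, sub_eq_add_neg, expChar_add, expChar_neg, h3]
  exact hom_mul_inv _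

end Comm

end Fermat.Agent.S48.B.Inst.Torsion
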