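/-
PROJECT D (S48), part B, block B5, the instance, file 8: THE ASSEMBLY (helper17).

**`assemblyStatement M ℓ : Spec.AssemblyStatement M ℓ`** : the seams of the other blocks give
`Spec.ResidualRepsModEigen M ℓ`, by calling helper26's abstract mod `ℓ` chain
`Chain/ModLFinal.exists_residualRep` with

* `V` = the `ℓ`-torsion of `J1 M` (finite by the dictionary), `ρ` = the Galois action (finite level
  by `SmoothSeam1`), `a` = the evaluation of `R1 M ℓ = ℤ[t_p, s_d]` on `T_p`, `⟨d⟩` (they commute on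
  `V` by `Inst/Torsion`);
* `κ`, `hmax` = helper21's `Chain/KerMax.exists_kappa`; `θ = φ' ∘ θ₀`;
* the class `x` = `Inst/Lattice.exists_lattice_class` transported to `V` through the dictionary;
* `hunr`, `hES` = `Inst/Torsion.inertia_smul_eq`, `frobenius_quadratic`;
* `δ` = helper21's `Chain/GalChar.exists_galChar`.
-/
import Mathlib
import Fermat.Agent.S48.B.Defs.Spec
import Fermat.Agent.S48.B.Inst.Torsion
import Fermat.Agent.S48.B.Chain.ModLFinal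
import Fermat.Agent.S48.B.Chain.KerMax
import Fermat.Agent.S48.B.Chain.GalChar

set_option autoImplicit false
set_option linter.style.haveILetI false
set_option linter.unusedSectionVars false

noncomputable section

namespace Fermat.Agent.S48.B.Inst.Main

open CongruenceSubgroup ModularCurve.Period
open Fermat.Agent.S48.B.Defs.Model Fermat.Agent.S48.B.Defs.Reduction Fermat.Agent.S48.B.Defs.Spec
open Fermat.Agent.S48.B.Inst.EvalComm Fermat.Agent.S48.B.Inst.Index Fermat.Agent.S48.B.Inst.Forms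
open Fermat.Agent.S48.B.Inst.Lattice Fermat.Agent.S48.B.Inst.ExpChar Fermat.Agent.S48.B.Inst.Dict
open Fermat.Agent.S48.B.Inst.Torsion
open Fermat.Agent.S48.B.Hecke.Gamma1Cosets Fermat.Agent.S48.B.Hecke.Diamond1
open Fermat.Agent.S48.B.Hecke.Parabolic1 Fermat.Agent.S48.B.Hecke.SpecExport
open scoped MatrixGroups

local notation "Kb" => AlgebraicClosure ℚ
local notation "GQ" => (AlgebraicClosure ℚ ≃ₐ[ℚ] AlgebraicClosure ℚ)
local notation "Zbar" => integralClosure ℤ ℂ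

variable {M ℓ : ℕ} [NeZero M]

/-! ### a general lemma on `evalComm` -/

theorem commute_evalComm {I A : Type*} [Ring A] (g : I → A)
    (hg : ∀ i j, g i * g j = g j * g i) (b : A) (hb : ∀ i, Commute (g i) b)
    (r : MvPolynomial I ℤ) : Commute (evalComm g hg r) b := by
  induction r using MvPolynomial.induction_on with
  | C n => rw [evalComm_C]; exact Int.cast_commute n b
  | add p q hp hq => rw [map_add]; exact hp.add_left hq
  | mul_X p i hp => rw [map_mul, evalComm_X]; exact hp.mul_left (hb i)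

/-! ### the torsion module -/

/-- the `ℓ`-torsion of `J1 M` -/
def tors (M ℓ : ℕ) [NeZero M] : Submodule ℤ (J1 M) where
  carrier := {v | ℓ • v = 0}
  zero_mem' := nsmul_zero ℓ
  add_mem' := by
    intro a b ha hb
    show ℓ • (a + b) = 0
    rw [nsmul_add, ha, hb, add_zero]
  smul_mem' := by
    intro c a ha
    show ℓ • (c • a) = 0
    rw [smul_comm, ha, smul_zero]

theorem mem_tors {v : J1 M} : v ∈ tors M ℓ ↔ ℓ • v = 0 := Iff.rfl

theorem isTorsion_of_mem (v : tors M ℓ) : ∃ n : ℕ, ℓ ^ n • (v : J1 M) = 0 :=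
  ⟨1, by rw [pow_one]; exact v.2⟩

theorem end_mem_tors (f : Module.End ℤ (J1 M)) (v : J1 M) (hv : v ∈ tors M ℓ) :
    f v ∈ tors M ℓ := by
  show ℓ • f v = 0
  rw [← map_nsmul, mem_tors.mp hv, map_zero]

/-- restriction of an endomorphism to the torsion -/
def resV (f : Module.End ℤ (J1 M)) : Module.End ℤ (tors M ℓ) := f.restrict (end_mem_tors f)

theorem coe_resV (f : Module.End ℤ (J1 M)) (v : tors M ℓ) :
    ((resV f v : tors M ℓ) : J1 M) = f (v : J1 M) := rfl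

/-- the Galois action as endomorphisms -/
def galEnd (σ : GQ) : Module.End ℤ (J1 M) :=
  (DistribSMul.toAddMonoidHom (J1 M) σ).toIntLinearMap

theorem galEnd_apply (σ : GQ) (v : J1 M) : galEnd σ v = σ • v := rfl

/-- the Galois representation on the torsion -/
def rho (M ℓ : ℕ) [NeZero M] : GQ →* Module.End ℤ (tors M ℓ) where
  toFun σ := resV (galEnd σ)
  map_one' := LinearMap.ext fun v => Subtype.ext (one_smul GQ (v : J1 M))
  map_mul' σ τ := LinearMap.ext fun v => Subtype.ext (mul_smul σ τ (v : J1 M))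

theorem coe_rho (σ : GQ) (v : tors M ℓ) : ((rho M ℓ σ v : tors M ℓ) : J1 M) = σ • (v : J1 M) :=
  rfl

/-- the operators on the torsion -/
def opV : Idx M ℓ → Module.End ℤ (tors M ℓ)
  | Sum.inl p => resV (hecke1Bar M p.1)
  | Sum.inr d => resV (diamond1Bar M d)

/-! ### commutation, finiteness, finite level -/

section Inputs

variable {ι : Kb →+* ℂ} (hdict : PhiDict1 M ι) (hhecke : PhiHecke1 M ι) (hdia : PhiDiamond1 M ι)
  (hgal : GaloisCommSeam1 M)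

include hdict hhecke hdia hgal in
theorem opV_comm (hℓ : ℓ ≠ 0) (hred : HasReduction1All M ℓ) (i j : Idx M ℓ) :
    opV i * opV j = opV j * opV i := by
  apply LinearMap.ext
  intro v
  apply Subtype.ext
  have hv : ∃ n : ℕ, n ≠ 0 ∧ n • (v : J1 M) = 0 := ⟨ℓ, hℓ, v.2⟩
  rcases i with p | d <;> rcases j with q | e
  · exact hecke_hecke hdict hhecke hdia hgal hℓ hred p.1 q.1 p.not_dvd_left q.not_dvd_left
      p.ne_right (isTorsion_of_mem v)
  · exact hecke_diamond hhecke hdia hdict p.1 p.not_dvd_left e hv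
  · exact (hecke_diamond hhecke hdia hdict q.1 q.not_dvd_left d hv).symm
  · exact diamond_diamond hdia hdict d e hv

include hgal in
theorem commute_opV_rho (i : Idx M ℓ) (σ : GQ) : Commute (opV i) (rho M ℓ σ) := by
  apply LinearMap.ext
  intro v
  apply Subtype.ext
  rcases i with p | d
  · exact hgal.1 p.1 σ (v : J1 M)
  · exact hgal.2.2 d σ (v : J1 M)

include hdict in
theorem finite_tors (hℓ : ℓ ≠ 0) : Finite (tors M ℓ) :=
  (finite_torsion hdict hℓ).to_subtype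

include hdict in
theorem finiteLevel_rho (hℓ : ℓ ≠ 0) (hsm : SmoothSeam1 M) :
    GaloisFactorsThroughFiniteLevel (rho M ℓ) := by
  haveI := finite_tors (ℓ := ℓ) hdict hℓ
  choose L hLfin hL using hsm
  haveI : ∀ v : tors M ℓ, FiniteDimensional ℚ (L (v : J1 M)) := fun v => hLfin _
  refine ⟨⨆ v : tors M ℓ, L (v : J1 M), IntermediateField.finiteDimensional_iSup_of_finite,
    fun σ hσ => ?_⟩
  apply LinearMap.ext
  intro v
  apply Subtype.ext
  exact hL (v : J1 M) σ fun y hy => hσ y (le_iSup (fun w : tors M ℓ => L (w : J1 M)) v hy)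

end Inputs

/-! ### the class in the torsion -/

section Class

variable {ι : Kb →+* ℂ} (hdict : PhiDict1 M ι) (hhecke : PhiHecke1 M ι) (hdia : PhiDiamond1 M ι)

/-- the relation between the torsion and the lattice: `Φ(w) = ζ ^ y` -/
def RelV (ι : Kb →+* ℂ) (ζ : ℂˣ) (w : tors M ℓ) (y : Lat M) : Prop :=
  IsPhiOf1 M ι (w : J1 M) (expChar ζ (y : Additive (Gamma1 M) →+ ℤ))

include hdict hhecke hdia in
theorem relV_evalComm (ζ : ℂˣ) (hV : ∀ i j : Idx M ℓ, opV i * opV j = opV j * opV i)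
    (hL : ∀ i j : Idx M ℓ, opL i * opL j = opL j * opL i) (r : R1 M ℓ) {w : tors M ℓ}
    {y : Lat M} (h : RelV ι ζ w y) :
    RelV ι ζ (evalComm opV hV r • w) (evalComm opL hL r • y) := by
  refine evalComm_rel (opV (M := M) (ℓ := ℓ)) hV opL hL (RelV ι ζ) ?_ ?_ ?_ ?_ r h
  · show IsPhiOf1 M ι ((0 : tors M ℓ) : J1 M) (expChar ζ ((0 : Lat M) : Additive (Gamma1 M) →+ ℤ))
    rw [Submodule.coe_zero, Submodule.coe_zero, expChar_zero]
    exact isPhiOf1_zero hdict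
  · intro w w' y y' hw hw'
    show IsPhiOf1 M ι ((w + w' : tors M ℓ) : J1 M)
      (expChar ζ ((y + y' : Lat M) : Additive (Gamma1 M) →+ ℤ))
    rw [Submodule.coe_add, Submodule.coe_add, expChar_add]
    exact hdict.add _ _ _ _ hw hw'
  · intro w y hw
    show IsPhiOf1 M ι ((-w : tors M ℓ) : J1 M)
      (expChar ζ ((-y : Lat M) : Additive (Gamma1 M) →+ ℤ))
    rw [Submodule.coe_neg, Submodule.coe_neg, expChar_neg]
    exact isPhiOf1_neg hdict hw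
  · intro i w y hw
    rcases i with p | d
    · exact isPhiOf1_tau1Par hhecke ζ p.1 p.not_dvd_left hw
    · have h1 := isPhiOf1_diamondPar hdia ζ (sigD d) hw
      rw [chi_sigD] at h1
      exact h1

variable {k : Type} [Field k]

include hdict hhecke hdia in
/-- **the class**: a nonzero `ℓ`-torsion point killed by the kernel of `φ ∘ θ₀` -/
theorem exists_class (hℓ : ℓ.Prime) [CharP k ℓ] {φ : Zbar →+* k} {ψ : (ZMod M)ˣ →* Zbarˣ}
    {c : ℕ → Zbar} {h : CuspForm (Gamma1 M) 2} {a : ℕ → Zbar} (hD : ModEigenData M φ ψ c h a)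
    (hP : PeriodSeam1 M) (hV : ∀ i j : Idx M ℓ, opV i * opV j = opV j * opV i)
    (hL : ∀ i j : Idx M ℓ, opL i * opL j = opL j * opL i) :
    ∃ x : tors M ℓ, x ≠ 0 ∧
      ∀ r : R1 M ℓ, φ (theta0 ψ c r) = 0 → evalComm opV hV r x = 0 := by
  obtain ⟨x₀, hx₀, hx₀I⟩ := exists_lattice_class hℓ.ne_zero hD hP hL
  obtain ⟨ζ, hζ⟩ := exists_primitiveRoot_units hℓ.ne_zero
  obtain ⟨v, hℓv, hv⟩ := exists_isPhiOf1_expChar hdict hℓ.ne_zero hζ.pow_eq_one x₀
  refine ⟨⟨v, hℓv⟩, ?_, fun r hr => ?_⟩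
  · intro h0
    have h1 : v = 0 := congrArg Subtype.val h0
    rw [h1] at hv
    have h2 := hdict.unique _ _ _ hv (isPhiOf1_zero hdict)
    exact hx₀ ((expChar_eq_one_iff hζ hℓ.ne_zero x₀).mp h2)
  · obtain ⟨y, hy⟩ := hx₀I r hr
    have h1 := relV_evalComm hdict hhecke hdia ζ hV hL r (w := ⟨v, hℓv⟩) (y := x₀) hv
    have h1' : RelV ι ζ (evalComm opV hV r • (⟨v, hℓv⟩ : tors M ℓ)) (ℓ • y) :=
      Eq.mp (congrArg (RelV ι ζ (evalComm opV hV r • (⟨v, hℓv⟩ : tors M ℓ))) hy) h1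
    have h2 : expChar ζ ((ℓ • y : Lat M) : Additive (Gamma1 M) →+ ℤ) = 1 :=
      (expChar_eq_one_iff hζ hℓ.ne_zero (ℓ • y)).mpr ⟨y, rfl⟩
    have h3 : IsPhiOf1 M ι ((evalComm opV hV r • (⟨v, hℓv⟩ : tors M ℓ) : tors M ℓ) : J1 M) 1 :=
      Eq.mp (congrArg (IsPhiOf1 M ι
        ((evalComm opV hV r • (⟨v, hℓv⟩ : tors M ℓ) : tors M ℓ) : J1 M)) h2) h1'
    exact Subtype.ext (hdict.injective _ h3)

end Class

/-! ### the generators `T p`, `D p` of the chain -/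

section Generators

/-- `t_p` for `p ∤ M ℓ` (and `0` otherwise) -/
def Tfun (M ℓ : ℕ) (p : ℕ) : R1 M ℓ :=
  if h : p.Prime ∧ ¬ p ∣ M * ℓ then tX (PrimeIdx.mk' p h.1 h.2) else 0

/-- `p s_p` for `p ∤ M ℓ` (and `0` otherwise) -/
def Dfun (M ℓ : ℕ) (p : ℕ) : R1 M ℓ :=
  if h : p.Prime ∧ ¬ p ∣ M * ℓ then (p : R1 M ℓ) * sX (PrimeIdx.mk' p h.1 h.2).unit else 0

omit [NeZero M] in
theorem Tfun_eq {p : ℕ} (hp : p.Prime) (h : ¬ p ∣ M * ℓ) :
    Tfun M ℓ p = tX (PrimeIdx.mk' p hp h) := dif_pos ⟨hp, h⟩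

omit [NeZero M] in
theorem Dfun_eq {p : ℕ} (hp : p.Prime) (h : ¬ p ∣ M * ℓ) :
    Dfun M ℓ p = (p : R1 M ℓ) * sX (PrimeIdx.mk' p hp h).unit := dif_pos ⟨hp, h⟩

theorem evalComm_opV_Tfun (hV : ∀ i j : Idx M ℓ, opV i * opV j = opV j * opV i) {p : ℕ}
    (hp : p.Prime) (h : ¬ p ∣ M * ℓ) :
    evalComm opV hV (Tfun M ℓ p) = opV (Sum.inl (PrimeIdx.mk' p hp h)) := by
  rw [Tfun_eq hp h]
  exact evalComm_X _ _ _

theorem evalComm_opV_Dfun (hV : ∀ i j : Idx M ℓ, opV i * opV j = opV j * opV i) {p : ℕ}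
    (hp : p.Prime) (h : ¬ p ∣ M * ℓ) :
    evalComm opV hV (Dfun M ℓ p) =
      (p : Module.End ℤ (tors M ℓ)) * opV (Sum.inr (PrimeIdx.mk' p hp h).unit) := by
  rw [Dfun_eq hp h, map_mul, map_natCast]
  congr 1
  exact evalComm_X _ _ _

theorem theta0_Tfun (ψ : (ZMod M)ˣ →* Zbarˣ) (c : ℕ → Zbar) {p : ℕ} (hp : p.Prime)
    (h : ¬ p ∣ M * ℓ) : theta0 ψ c (Tfun M ℓ p) = c p := by
  rw [Tfun_eq hp h]
  exact theta0_tX ψ c _

theorem theta0_Dfun (ψ : (ZMod M)ˣ →* Zbarˣ) (c : ℕ → Zbar) {p : ℕ} (hp : p.Prime)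
    (h : ¬ p ∣ M * ℓ) :
    theta0 ψ c (Dfun M ℓ p) =
      (p : Zbar) * ((ψ (PrimeIdx.mk' (M := M) (ℓ := ℓ) p hp h).unit : Zbarˣ) : Zbar) := by
  rw [Dfun_eq hp h, map_mul, map_natCast, theta0_sX]

end Generators

/-! ### the assembly -/

section Assembly

omit [NeZero M] in
theorem not_dvd_of_not_mem (hM : M * ℓ ≠ 0) {p : ℕ} (hp : p.Prime)
    (h : p ∉ (M * ℓ).primeFactors) : ¬ p ∣ M * ℓ := fun hd =>
  h (Nat.mem_primeFactors.mpr ⟨hp, hd, hM⟩)

omit [NeZero M] in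
theorem not_mem_of_not_dvd {p : ℕ} (h : ¬ p ∣ M * ℓ) : p ∉ (M * ℓ).primeFactors := fun hm =>
  h (Nat.mem_primeFactors.mp hm).2.1

theorem rho_inertia (hℓ : ℓ.Prime) (hred : HasReduction1All M ℓ) (p : ℕ) (hp : p.Prime)
    (hpS : p ∉ (M * ℓ).primeFactors) (A : ValuationSubring Kb) (hA : A.LiesOverPrime p) (σ : GQ)
    (hσ : σ ∈ A.inertiaSubgroupIn ℚ) : rho M ℓ σ = 1 := by
  have hMℓ : M * ℓ ≠ 0 := mul_ne_zero (NeZero.ne M) hℓ.ne_zero
  have hpMℓ := not_dvd_of_not_mem hMℓ hp hpS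
  have hpM : p.Coprime M := (Nat.Prime.coprime_iff_not_dvd hp).mpr fun hd =>
    hpMℓ (Dvd.dvd.mul_right hd ℓ)
  have hpℓ : p ≠ ℓ := fun he => hpMℓ (he ▸ dvd_mul_left p M)
  exact LinearMap.ext fun v => Subtype.ext
    (inertia_smul_eq hred hp hpM hpℓ A hA hσ (isTorsion_of_mem v))

theorem rho_frobenius (hred : HasReduction1All M ℓ) (q : PrimeIdx M ℓ) (A : ValuationSubring Kb)
    (hA : A.LiesOverPrime (q.1 : ℕ)) (σ : GQ) (hσ : A.IsFrobeniusAt σ (q.1 : ℕ)) :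
    rho M ℓ σ * rho M ℓ σ - opV (Sum.inl q) * rho M ℓ σ +
      ((q.1 : ℕ) : Module.End ℤ (tors M ℓ)) * opV (Sum.inr q.unit) = 0 := by
  apply LinearMap.ext
  intro v
  apply Subtype.ext
  exact frobenius_quadratic hred q.1 q.coprime q.ne_right A hA hσ (isTorsion_of_mem v)

theorem rho_frobenius' (hV : ∀ i j : Idx M ℓ, opV i * opV j = opV j * opV i) (hℓ : ℓ.Prime)
    (hred : HasReduction1All M ℓ) (p : ℕ) (hp : p.Prime)
    (hpS : p ∉ (M * ℓ).primeFactors) (A : ValuationSubring Kb) (hA : A.LiesOverPrime p) (σ : GQ)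
    (hσ : A.IsFrobeniusAt σ p) :
    rho M ℓ σ * rho M ℓ σ - evalComm opV hV (Tfun M ℓ p) * rho M ℓ σ +
      evalComm opV hV (Dfun M ℓ p) = 0 := by
  have hMℓ : M * ℓ ≠ 0 := mul_ne_zero (NeZero.ne M) hℓ.ne_zero
  have hpMℓ := not_dvd_of_not_mem hMℓ hp hpS
  have hT := evalComm_opV_Tfun hV hp hpMℓ
  have hDd := evalComm_opV_Dfun hV hp hpMℓ
  have h1 := rho_frobenius hred (PrimeIdx.mk' (M := M) (ℓ := ℓ) p hp hpMℓ) A hA σ hσ
  exact (congrArg₂ (fun s t : Module.End ℤ (tors M ℓ) =>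
    rho M ℓ σ * rho M ℓ σ - s * rho M ℓ σ + t) hT hDd).trans h1

theorem delta_frobenius (hℓ : ℓ.Prime) {κ : Type} [Field κ] (φ' : Zbar →+* κ)
    (ψ : (ZMod M)ˣ →* Zbarˣ) (c : ℕ → Zbar) (δ : GQ →* κˣ)
    (hδ : ∀ (p : ℕ) (_ : p.Prime) (_ : ¬ p ∣ M * ℓ) (hpM : p.Coprime M)
      (A : ValuationSubring Kb), A.LiesOverPrime p → ∀ σ : GQ, A.IsFrobeniusAt σ p →
        ((δ σ : κˣ) : κ) = (p : κ) *
          ((((Units.map φ'.toMonoidHom).comp ψ) (ZMod.unitOfCoprime p hpM) : κˣ) : κ))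
    (p : ℕ) (hp : p.Prime) (hpS : p ∉ (M * ℓ).primeFactors) (A : ValuationSubring Kb)
    (hA : A.LiesOverPrime p) (σ : GQ) (hσ : A.IsFrobeniusAt σ p) :
    ((δ σ : κˣ) : κ) = (φ'.comp (theta0 ψ c)) (Dfun M ℓ p) := by
  have hMℓ : M * ℓ ≠ 0 := mul_ne_zero (NeZero.ne M) hℓ.ne_zero
  have hpMℓ := not_dvd_of_not_mem hMℓ hp hpS
  rw [hδ p hp hpMℓ (PrimeIdx.mk' (M := M) (ℓ := ℓ) p hp hpMℓ).coprime A hA σ hσ,
    RingHom.comp_apply, theta0_Dfun ψ c hp hpMℓ, map_mul, map_natCast]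
  rfl

/-- **THE B5 ASSEMBLY.** -/
theorem assemblyStatement (M ℓ : ℕ) [NeZero M] : AssemblyStatement M ℓ := by
  intro hℓ hℓ2 _ hred hex _ hper hsm hgal
  obtain ⟨ι, hdict, hhecke, hdia⟩ := hex
  intro k _ _ φ ψ c h a hD
  haveI : Fact ℓ.Prime := ⟨hℓ⟩
  obtain ⟨κ, hF, hAC, hchar, φ', io, hio, hmax⟩ :=
    Fermat.Agent.S48.B.Chain.KerMax.exists_kappa (l := ℓ) φ
  letI : Field κ := hF
  haveI : IsAlgClosed κ := hAC
  haveI : CharP κ ℓ := hchar
  have hV := opV_comm (ℓ := ℓ) hdict hhecke hdia hgal hℓ.ne_zero (hred ℓ hℓ)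
  have hTT : ∀ p q : PrimeIdx M ℓ,
      tau1Par ℤ ℤ M (p.1 : ℕ) p.prime * tau1Par ℤ ℤ M (q.1 : ℕ) q.prime =
        tau1Par ℤ ℤ M (q.1 : ℕ) q.prime * tau1Par ℤ ℤ M (p.1 : ℕ) p.prime := fun p q =>
    tau1Par_comm hdict hhecke hdia hgal hred p.prime q.prime p.not_dvd_left q.not_dvd_left
  have hL := opL_comm (ℓ := ℓ) hTT
  obtain ⟨x, hx0, hxI⟩ := exists_class hdict hhecke hdia hℓ hD hper hV hL
  haveI := finite_tors (ℓ := ℓ) hdict hℓ.ne_zero
  obtain ⟨δ, hδfin, hδunr, hδ⟩ := Fermat.Agent.S48.B.Chain.GalChar.exists_galChar M ℓ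
    ((Units.map φ'.toMonoidHom).comp ψ)
  have hMℓ : M * ℓ ≠ 0 := mul_ne_zero (NeZero.ne M) hℓ.ne_zero
  have hfin := finiteLevel_rho (ℓ := ℓ) hdict hℓ.ne_zero hsm
  have hcomm : ∀ (r : R1 M ℓ) (σ : GQ), Commute (evalComm opV hV r) (rho M ℓ σ) := fun r σ =>
    commute_evalComm opV hV (rho M ℓ σ) (fun i => commute_opV_rho hgal i σ) r
  have hxθ : ∀ r : R1 M ℓ, (φ'.comp (theta0 ψ c)) r = 0 → evalComm opV hV r x = 0 := by
    intro r hr
    apply hxI r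
    have h1 : φ' (theta0 ψ c r) = 0 := hr
    rw [← hio, h1, map_zero]
  have hδunr' : ∀ p : ℕ, p.Prime → p ∉ (M * ℓ).primeFactors → ∀ A : ValuationSubring Kb,
      A.LiesOverPrime p → ∀ σ ∈ A.inertiaSubgroupIn ℚ, δ σ = 1 :=
    fun p hp hpS A hA σ hσ => hδunr p hp (not_dvd_of_not_mem hMℓ hp hpS) A hA σ hσ
  obtain ⟨r, hr1, hr2⟩ := Fermat.Agent.S48.B.Chain.ModLFinal.exists_residualRep hℓ2 io
    (rho M ℓ) hfin (evalComm opV hV) hcomm (φ'.comp (theta0 ψ c)) (hmax (theta0 ψ c)) hx0 hxθ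
    (M * ℓ).primeFactors (rho_inertia hℓ (hred ℓ hℓ)) (Tfun M ℓ) (Dfun M ℓ)
    (rho_frobenius' hV hℓ (hred ℓ hℓ)) δ hδfin hδunr' (delta_frobenius hℓ φ' ψ c δ hδ)
  refine ⟨r, fun p hp hpMℓ => hr1 p hp (not_mem_of_not_dvd hpMℓ), ?_⟩
  intro p hp hpMℓ hpM A hA σ hσ
  rw [hr2 p hp (not_mem_of_not_dvd hpMℓ) A hA σ hσ, RingHom.comp_apply, RingHom.comp_apply,
    theta0_Tfun ψ c hp hpMℓ, theta0_Dfun ψ c hp hpMℓ, hio, hio]
  rfl

end Assembly

end Fermat.Agent.S48.B.Inst.Main
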