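/-
PROJECT D (S48), part B, block B5, the instance, file 9: THE OUTPUT OF B5 ON THE NAMED SEAMS
(helper17).

`Inst/Main.assemblyStatement` with the hypotheses which are theorems by now plugged in:

* `CosetSeam1 M` = helper18's `Hecke/SpecExport.cosetSeam1`;
* `PeriodSeam1 M` = helper5's `Period/Seam1.periodSeam1` (with helper18's `Period/Equivariance1`);
* `GaloisCommSeam1 M` = helper4's `Arith/HeckeGalois1.galoisCommSeam1`;
* `SmoothSeam1 M` = helper4's `Arith/Smooth1.smoothSeam1_of_deg1` (from B1's `Deg1 M`);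
* `PhiDict1 M ι` = helper20's `Dict/Descent/RootTwist.phiDict1_of_deg_repLe` (from B1's `Deg1 M`,
  `RepLe M` and the dictionary over `ℂ`, `PsiDict1 M`);
* `PhiHecke1 M ι` = helper18's `Hecke/StarExport.phiHecke1_of_star` (from `PhiHeckeStar1`,
  `PhiDiamond1` and the swap identity `T_p = ⟨p⟩ T_p^*` on `J1 M`).

**`residualRepsModEigen_of`** : what is left are the seams of B1 (`Deg1`, `RepLe`), of the dictionary
(`PsiDict1`, `PhiHeckeStar1`, `PhiDiamond1`), of [B-ES] (the swap identity) and of B2 + B3 + B4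
(`HasReduction1All M P` for all primes `P`).
-/
import Mathlib
import Fermat.Agent.S48.B.Inst.Main
import Fermat.Agent.S48.B.Hecke.StarExport
import Fermat.Agent.S48.B.Period.Seam1
import Fermat.Agent.S48.B.Arith.Smooth1
import Fermat.Agent.S48.B.Arith.HeckeGalois1
import Fermat.Agent.S48.B.Dict.Descent.RootTwist
import Fermat.Agent.S48.B.B1.Main
import Fermat.Agent.S48.B.Hecke.Wire
import Fermat.Agent.S48.B.Dict.PsiDictOf
import Fermat.Agent.S48.B.Hecke.Swap.Main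
import Fermat.Agent.S48.B.ES.Descent
import Fermat.Agent.S48.B.Dict.Places.Final

set_option autoImplicit false

noncomputable section

namespace Fermat.Agent.S48.B.Inst.Top

open Fermat.Agent.S48.B.Defs.Model Fermat.Agent.S48.B.Defs.Reduction Fermat.Agent.S48.B.Defs.Spec

local notation "Kb" => AlgebraicClosure ℚ

/-- **[B-S29'] in mod `λ` form on the named seams** -/
theorem residualRepsModEigen_of (M ℓ : ℕ) [NeZero M] (hℓ : ℓ.Prime) (hℓ2 : ℓ ≠ 2) (hM : 5 ≤ M)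
    (hdeg : Fermat.Agent.S48.B.B1.Seams.Deg1 M) (hrep : Fermat.Agent.S48.B.B1.Seams.RepLe M)
    (hpsi : PsiDict1 M) (ι : Kb →+* ℂ) (hstar : PhiHeckeStar1 M ι) (hdia : PhiDiamond1 M ι)
    (hswap : ∀ (p : Nat.Primes), ¬ (p : ℕ) ∣ M → ∃ d : (ZMod M)ˣ,
      (d : ZMod M) = ((p : ℕ) : ZMod M) ∧
        ∀ x : J1 M, hecke1Bar M p x = diamond1Bar M d (heckeStar1Bar M p x))
    (hred : ∀ P : ℕ, P.Prime → HasReduction1All M P) :
    ResidualRepsModEigen M ℓ :=
  Fermat.Agent.S48.B.Inst.Main.assemblyStatement M ℓ hℓ hℓ2 hM hred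
    ⟨ι, Fermat.Agent.S48.B.Dict.Descent.RootTwist.phiDict1_of_deg_repLe M ι hdeg hrep hpsi,
      Fermat.Agent.S48.B.Hecke.StarExport.phiHecke1_of_star ι hstar hdia hswap, hdia⟩
    (Fermat.Agent.S48.B.Hecke.SpecExport.cosetSeam1 M)
    (Fermat.Agent.S48.B.Period.Seam1.periodSeam1 M)
    (Fermat.Agent.S48.B.Arith.Smooth1.smoothSeam1_of_deg1 M hdeg)
    (Fermat.Agent.S48.B.Arith.HeckeGalois1.galoisCommSeam1 M)

/-- **[B-S29'] in mod `λ` form**, with the seams of B1 (helper7's `B1/Main`: theorems) plugged in -/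
theorem residualRepsModEigen_of' (M ℓ : ℕ) [NeZero M] (hℓ : ℓ.Prime) (hℓ2 : ℓ ≠ 2) (hM : 5 ≤ M)
    (hpsi : PsiDict1 M) (ι : Kb →+* ℂ) (hstar : PhiHeckeStar1 M ι) (hdia : PhiDiamond1 M ι)
    (hswap : ∀ (p : Nat.Primes), ¬ (p : ℕ) ∣ M → ∃ d : (ZMod M)ˣ,
      (d : ZMod M) = ((p : ℕ) : ZMod M) ∧
        ∀ x : J1 M, hecke1Bar M p x = diamond1Bar M d (heckeStar1Bar M p x))
    (hred : ∀ P : ℕ, P.Prime → HasReduction1All M P) :
    ResidualRepsModEigen M ℓ :=
  residualRepsModEigen_of M ℓ hℓ hℓ2 hM (Fermat.Agent.S48.B.B1.Main.deg1 M)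
    (Fermat.Agent.S48.B.B1.Main.repLe M) hpsi ι hstar hdia hswap hred

/-- an embedding `ℚ̄ → ℂ` -/
def iotaC : Kb →+* ℂ := (IsAlgClosed.lift : Kb →ₐ[ℚ] ℂ).toRingHom

/-- **[B-S29'] in mod `λ` form on the LAST open seams**: `Deg1p` (B1, helper23), the local-global
principle for the places of `FC1 M` (C4, helper19), the swap identity ([B-ES]) and the reduction
interface (B2 + B3 + B4 + [B-ES]).  Everything else is a theorem: helper7's `B1/Main`, helper18's
`Hecke/Wire`, helper27's `Dict/PsiDictOf`, helper20's `Dict/Descent/RootTwist`. -/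
theorem residualRepsModEigen_of'' (M ℓ : ℕ) [NeZero M] (hℓ : ℓ.Prime) (hℓ2 : ℓ ≠ 2) (hM : 5 ≤ M)
    (hp : ∀ (l : ℕ) [NeZero l], Fermat.Agent.S48.B.B1.Seams2.Deg1p M l)
    (hLG : Fermat.Agent.S48.B.Dict.TwistedSurj.LocalGlobal1 M
      (Fermat.Agent.S48.B.B1.RepEq1.repEq_of M (Fermat.Agent.S48.B.B1.Main.deg1 M)
        (Fermat.Agent.S48.B.B1.Main.repLe M)))
    (hswap : ∀ (p : Nat.Primes), ¬ (p : ℕ) ∣ M → ∃ d : (ZMod M)ˣ,
      (d : ZMod M) = ((p : ℕ) : ZMod M) ∧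
        ∀ x : J1 M, hecke1Bar M p x = diamond1Bar M d (heckeStar1Bar M p x))
    (hred : ∀ P : ℕ, P.Prime → HasReduction1All M P) :
    ResidualRepsModEigen M ℓ :=
  residualRepsModEigen_of' M ℓ hℓ hℓ2 hM
    (Fermat.Agent.S48.B.Dict.PsiDictOf.psiDict1_of_localGlobal M hM
      (Fermat.Agent.S48.B.B1.Main.deg1 M) (Fermat.Agent.S48.B.B1.Main.repLe M) hLG)
    iotaC
    (Fermat.Agent.S48.B.Hecke.Wire.phiHeckeStar1_of_seams iotaC
      (Fermat.Agent.S48.B.B1.Main.repLe M) (Fermat.Agent.S48.B.B1.Main.deg1 M) hp)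
    (Fermat.Agent.S48.B.Hecke.Wire.phiDiamond1_of_b1 iotaC (Fermat.Agent.S48.B.B1.Main.deg1 M)
      (Fermat.Agent.S48.B.B1.Main.diamondAn M) (Fermat.Agent.S48.B.B1.Main.diamondExists M))
    hswap hred

/-- **[B-S29'] in mod `λ` form on the THREE last open seams**: the local-global principle for the
places of `FC1 M` (C4), the swap identity ([B-ES], helper18) and the reduction interface
(B2 + B3 + B4 + [B-ES]).  `Deg1p` is helper7's `B1/Main.deg1p` (helper23 + helper8 + helper10 +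
helper2). -/
theorem residualRepsModEigen_of3 (M ℓ : ℕ) [NeZero M] (hℓ : ℓ.Prime) (hℓ2 : ℓ ≠ 2) (hM : 5 ≤ M)
    (hLG : Fermat.Agent.S48.B.Dict.TwistedSurj.LocalGlobal1 M
      (Fermat.Agent.S48.B.B1.RepEq1.repEq_of M (Fermat.Agent.S48.B.B1.Main.deg1 M)
        (Fermat.Agent.S48.B.B1.Main.repLe M)))
    (hswap : ∀ (p : Nat.Primes), ¬ (p : ℕ) ∣ M → ∃ d : (ZMod M)ˣ,
      (d : ZMod M) = ((p : ℕ) : ZMod M) ∧
        ∀ x : J1 M, hecke1Bar M p x = diamond1Bar M d (heckeStar1Bar M p x))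
    (hred : ∀ P : ℕ, P.Prime → HasReduction1All M P) :
    ResidualRepsModEigen M ℓ :=
  residualRepsModEigen_of'' M ℓ hℓ hℓ2 hM
    (fun l _ => Fermat.Agent.S48.B.B1.Main.deg1p M l) hLG hswap hred

/-- **the swap identity `T_p = ⟨p⟩ T_p^*` on `J₁(M)`**: helper18's `Hecke/Swap/Main.swap1` on helper8's
`ES/Descent.hasRhoB_of` and the theorems of `B1/Main` -/
theorem swap (M : ℕ) [NeZero M] : ∀ (p : Nat.Primes), ¬ (p : ℕ) ∣ M → ∃ d : (ZMod M)ˣ,
    (d : ZMod M) = ((p : ℕ) : ZMod M) ∧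
      ∀ x : J1 M, hecke1Bar M p x = diamond1Bar M d (heckeStar1Bar M p x) :=
  Fermat.Agent.S48.B.Hecke.Swap.Main.swap1 (Fermat.Agent.S48.B.B1.Main.deg1 M)
    (fun l _ => Fermat.Agent.S48.B.B1.Main.deg1p M l)
    (fun _ _ hlM => Fermat.Agent.S48.B.ES.Descent.hasRhoB_of hlM
      (Fermat.Agent.S48.B.B1.Main.repLe M) (Fermat.Agent.S48.B.B1.Main.diamondAn M)
      (Fermat.Agent.S48.B.B1.Main.diamondExists M))

/-- **[B-S29'] in mod `λ` form on the TWO last open seams**: the local-global principle for the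
places of `FC1 M` (C4: helper19's glue on `Dict/Places/Cusp`) and the reduction interface
(B2 + B3 + B4 + [B-ES]). -/
theorem residualRepsModEigen_of4 (M ℓ : ℕ) [NeZero M] (hℓ : ℓ.Prime) (hℓ2 : ℓ ≠ 2) (hM : 5 ≤ M)
    (hLG : Fermat.Agent.S48.B.Dict.TwistedSurj.LocalGlobal1 M
      (Fermat.Agent.S48.B.B1.RepEq1.repEq_of M (Fermat.Agent.S48.B.B1.Main.deg1 M)
        (Fermat.Agent.S48.B.B1.Main.repLe M)))
    (hred : ∀ P : ℕ, P.Prime → HasReduction1All M P) :
    ResidualRepsModEigen M ℓ :=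
  residualRepsModEigen_of3 M ℓ hℓ hℓ2 hM hLG (swap M) hred

/-- **[B-S29'] in mod `λ` form on the LAST open seam**: the reduction interface
`HasReduction1All M P` at every prime `P` (B2 + B3 + B4 + [B-ES]).  Everything else of B5 is a
theorem: (A) chain, (B) Hecke group theory, (C) dictionary (C4 = helper27's `Dict/Places/Final`),
(D) `Φ`-equivariance and swap, (E) periods, (F) arithmetic twins, (G) instance. -/
theorem residualRepsModEigen_of5 (M ℓ : ℕ) [NeZero M] (hℓ : ℓ.Prime) (hℓ2 : ℓ ≠ 2) (hM : 5 ≤ M)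
    (hred : ∀ P : ℕ, P.Prime → HasReduction1All M P) :
    ResidualRepsModEigen M ℓ :=
  residualRepsModEigen_of4 M ℓ hℓ hℓ2 hM
    (Fermat.Agent.S48.B.Dict.Places.Final.localGlobal1 M (Fermat.Agent.S48.B.B1.Main.deg1 M) _) hred

end Fermat.Agent.S48.B.Inst.Top
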