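/-
PROJECT D (S48), part B, block B5, the instance, file 1: EVALUATION OF POLYNOMIALS AT A COMMUTING
FAMILY (helper17).  Mathlib only.

`R = MvPolynomial I ℤ` is the free commutative ring on the symbols `t_p`, `s_d`.  A pairwise commuting
family `g : I → A` in a ring `A` (endomorphisms of the lattice, of the torsion, of the forms, of the
`q`-expansions) gives a ring homomorphism `evalComm g hg : R →+* A`, `X i ↦ g i`; no relation has to
be checked.  An additive relation between an `A₁`-module and an `A₂`-module which is compatible with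
the generators is compatible with every polynomial (`evalComm_rel`); special cases: equivariant maps
(`evalComm_map`), invariant subgroups (`evalComm_mem`).
-/
import Mathlib

set_option autoImplicit false

namespace Fermat.Agent.S48.B.Inst.EvalComm

open MvPolynomial

section Def

variable {I A : Type*} [Ring A]

theorem isMulCommutative_adjoin_range (g : I → A) (hg : ∀ i j, g i * g j = g j * g i) :
    IsMulCommutative (Algebra.adjoin ℤ (Set.range g)) :=
  Algebra.isMulCommutative_adjoin ℤ (by
    rintro _ ⟨i, rfl⟩ _ ⟨j, rfl⟩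
    exact hg i j)

open scoped IsMulCommutative in
/-- the evaluation with values in the commutative subalgebra generated by the family -/
noncomputable def evalAux (g : I → A) (hg : ∀ i j, g i * g j = g j * g i) :
    MvPolynomial I ℤ →ₐ[ℤ] (Algebra.adjoin ℤ (Set.range g) : Subalgebra ℤ A) :=
  haveI := isMulCommutative_adjoin_range g hg
  MvPolynomial.aeval fun i =>
    (⟨g i, Algebra.subset_adjoin (Set.mem_range_self i)⟩ : Algebra.adjoin ℤ (Set.range g))

/-- **evaluation of polynomials at a commuting family** -/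
noncomputable def evalComm (g : I → A) (hg : ∀ i j, g i * g j = g j * g i) :
    MvPolynomial I ℤ →+* A :=
  ((Algebra.adjoin ℤ (Set.range g)).val.comp (evalAux g hg)).toRingHom

theorem evalComm_apply (g : I → A) (hg : ∀ i j, g i * g j = g j * g i) (r : MvPolynomial I ℤ) :
    evalComm g hg r = (evalAux g hg r : A) := rfl

open scoped IsMulCommutative in
theorem evalAux_X (g : I → A) (hg : ∀ i j, g i * g j = g j * g i) (i : I) :
    evalAux g hg (X i) = ⟨g i, Algebra.subset_adjoin (Set.mem_range_self i)⟩ :=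
  haveI := isMulCommutative_adjoin_range g hg
  MvPolynomial.aeval_X _ i

@[simp]
theorem evalComm_X (g : I → A) (hg : ∀ i j, g i * g j = g j * g i) (i : I) :
    evalComm g hg (X i) = g i := by
  rw [evalComm_apply, evalAux_X]

@[simp]
theorem evalComm_C (g : I → A) (hg : ∀ i j, g i * g j = g j * g i) (n : ℤ) :
    evalComm g hg (C n) = (n : A) := by
  rw [← MvPolynomial.algebraMap_eq, eq_intCast, map_intCast]

/-- evaluation commutes with ring homomorphisms -/
theorem comp_evalComm {B : Type*} [Ring B] (f : A →+* B) (g : I → A)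
    (hg : ∀ i j, g i * g j = g j * g i) (hg' : ∀ i j, f (g i) * f (g j) = f (g j) * f (g i)) :
    f.comp (evalComm g hg) = evalComm (fun i => f (g i)) hg' := by
  apply MvPolynomial.ringHom_ext
  · intro n
    rw [RingHom.comp_apply, evalComm_C, evalComm_C, map_intCast]
  · intro i
    rw [RingHom.comp_apply, evalComm_X, evalComm_X]

end Def

section Rel

variable {I A₁ A₂ M₁ M₂ : Type*} [Ring A₁] [Ring A₂] [AddCommGroup M₁] [AddCommGroup M₂]
  [Module A₁ M₁] [Module A₂ M₂]

/-- an additive relation is compatible with integer multiples -/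
theorem rel_zsmul (Rel : M₁ → M₂ → Prop) (h0 : Rel 0 0)
    (hadd : ∀ m m' b b', Rel m b → Rel m' b' → Rel (m + m') (b + b'))
    (hneg : ∀ m b, Rel m b → Rel (-m) (-b)) (n : ℤ) {m : M₁} {b : M₂} (h : Rel m b) :
    Rel (n • m) (n • b) := by
  induction n using Int.induction_on with
  | zero => rw [zero_smul, zero_smul]; exact h0
  | succ k ih => rw [add_smul, add_smul, one_smul, one_smul]; exact hadd _ _ _ _ ih h
  | pred k ih =>
    rw [sub_smul, sub_smul, one_smul, one_smul, sub_eq_add_neg, sub_eq_add_neg]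
    exact hadd _ _ _ _ ih (hneg _ _ h)

/-- **An additive relation compatible with the generators is compatible with every polynomial.** -/
theorem evalComm_rel (g₁ : I → A₁) (hg₁ : ∀ i j, g₁ i * g₁ j = g₁ j * g₁ i) (g₂ : I → A₂)
    (hg₂ : ∀ i j, g₂ i * g₂ j = g₂ j * g₂ i) (Rel : M₁ → M₂ → Prop) (h0 : Rel 0 0)
    (hadd : ∀ m m' b b', Rel m b → Rel m' b' → Rel (m + m') (b + b'))
    (hneg : ∀ m b, Rel m b → Rel (-m) (-b))
    (hgen : ∀ i m b, Rel m b → Rel (g₁ i • m) (g₂ i • b)) (r : MvPolynomial I ℤ) :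
    ∀ {m : M₁} {b : M₂}, Rel m b → Rel (evalComm g₁ hg₁ r • m) (evalComm g₂ hg₂ r • b) := by
  induction r using MvPolynomial.induction_on with
  | C n =>
    intro m b h
    rw [evalComm_C, evalComm_C, Int.cast_smul_eq_zsmul, Int.cast_smul_eq_zsmul]
    exact rel_zsmul Rel h0 hadd hneg n h
  | add p q hp hq =>
    intro m b h
    rw [map_add, map_add, add_smul, add_smul]
    exact hadd _ _ _ _ (hp h) (hq h)
  | mul_X p i hp =>
    intro m b h
    rw [map_mul, map_mul, evalComm_X, evalComm_X, mul_smul, mul_smul]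
    exact hp (hgen i m b h)

/-- equivariant maps -/
theorem evalComm_map (g₁ : I → A₁) (hg₁ : ∀ i j, g₁ i * g₁ j = g₁ j * g₁ i) (g₂ : I → A₂)
    (hg₂ : ∀ i j, g₂ i * g₂ j = g₂ j * g₂ i) (P : M₁ →+ M₂)
    (hP : ∀ i m, P (g₁ i • m) = g₂ i • P m) (r : MvPolynomial I ℤ) (m : M₁) :
    P (evalComm g₁ hg₁ r • m) = evalComm g₂ hg₂ r • P m := by
  refine evalComm_rel g₁ hg₁ g₂ hg₂ (fun m b => P m = b) (map_zero P) ?_ ?_ ?_ r rfl
  · rintro m m' _ _ rfl rfl
    exact map_add P m m'
  · rintro m _ rfl
    exact map_neg P m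
  · rintro i m _ rfl
    exact hP i m

/-- invariant subgroups -/
theorem evalComm_mem (g₁ : I → A₁) (hg₁ : ∀ i j, g₁ i * g₁ j = g₁ j * g₁ i) (N : AddSubgroup M₁)
    (hN : ∀ i, ∀ m ∈ N, g₁ i • m ∈ N) (r : MvPolynomial I ℤ) {m : M₁} (hm : m ∈ N) :
    evalComm g₁ hg₁ r • m ∈ N := by
  have := evalComm_rel (M₂ := M₁) g₁ hg₁ g₁ hg₁ (fun m _ => m ∈ N) N.zero_mem
    (fun m m' _ _ h h' => N.add_mem h h') (fun m _ h => N.neg_mem h)
    (fun i m _ h => hN i m h) r (m := m) (b := m) hm
  exact this

/-- a polynomial killing a generating set kills everything (for additive, `A₁`-equivariant spans) -/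
theorem evalComm_smul_eq_zero_of_closure (g₁ : I → A₁) (hg₁ : ∀ i j, g₁ i * g₁ j = g₁ j * g₁ i)
    (S : Set M₁) (hS : AddSubgroup.closure S = ⊤) (r : MvPolynomial I ℤ)
    (h : ∀ m ∈ S, evalComm g₁ hg₁ r • m = 0) (m : M₁) : evalComm g₁ hg₁ r • m = 0 := by
  have hm : m ∈ AddSubgroup.closure S := by rw [hS]; exact AddSubgroup.mem_top m
  induction hm using AddSubgroup.closure_induction with
  | mem x hx => exact h x hx
  | zero => exact smul_zero _
  | add x y _ _ hx hy => rw [smul_add, hx, hy, add_zero]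
  | neg x _ hx => rw [smul_neg, hx, neg_zero]

end Rel

end Fermat.Agent.S48.B.Inst.EvalComm
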