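/-
PROJECT D (S48), part B, block B5, the instance, file 2: THE INDEX SET AND THE FREE HECKE RING
(helper17).  Mathlib only.

`Idx M ℓ` = the primes `p ∤ M ℓ` together with the units modulo `M`; `R1 M ℓ = ℤ[t_p, s_d]` the free
commutative ring on these symbols.
-/
import Mathlib

set_option autoImplicit false

namespace Fermat.Agent.S48.B.Inst.Index

/-- the primes not dividing `M ℓ` -/
abbrev PrimeIdx (M ℓ : ℕ) : Type := {p : Nat.Primes // ¬ (p : ℕ) ∣ M * ℓ}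

/-- the index set of the generators `t_p` (`p ∤ M ℓ`) and `s_d` (`d` a unit modulo `M`) -/
abbrev Idx (M ℓ : ℕ) : Type := PrimeIdx M ℓ ⊕ (ZMod M)ˣ

/-- the free commutative ring `ℤ[t_p, s_d]` -/
abbrev R1 (M ℓ : ℕ) : Type := MvPolynomial (Idx M ℓ) ℤ

variable {M ℓ : ℕ}

theorem PrimeIdx.prime (p : PrimeIdx M ℓ) : (p.1 : ℕ).Prime := p.1.2

theorem PrimeIdx.not_dvd_left (p : PrimeIdx M ℓ) : ¬ (p.1 : ℕ) ∣ M := fun h =>
  p.2 (Dvd.dvd.mul_right h ℓ)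

theorem PrimeIdx.not_dvd_right (p : PrimeIdx M ℓ) : ¬ (p.1 : ℕ) ∣ ℓ := fun h =>
  p.2 (Dvd.dvd.mul_left h M)

theorem PrimeIdx.coprime (p : PrimeIdx M ℓ) : (p.1 : ℕ).Coprime M :=
  (Nat.Prime.coprime_iff_not_dvd p.prime).mpr p.not_dvd_left

theorem PrimeIdx.ne_right (p : PrimeIdx M ℓ) : (p.1 : ℕ) ≠ ℓ := fun h =>
  p.not_dvd_right (dvd_of_eq h)

/-- the unit `p mod M` -/
noncomputable def PrimeIdx.unit (p : PrimeIdx M ℓ) : (ZMod M)ˣ := ZMod.unitOfCoprime (p.1 : ℕ) p.coprime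

theorem PrimeIdx.coe_unit (p : PrimeIdx M ℓ) : ((p.unit : (ZMod M)ˣ) : ZMod M) = ((p.1 : ℕ) : ZMod M) :=
  ZMod.coe_unitOfCoprime _ _

/-- the index of a prime `p ∤ M ℓ` -/
def PrimeIdx.mk' (p : ℕ) (hp : p.Prime) (h : ¬ p ∣ M * ℓ) : PrimeIdx M ℓ := ⟨⟨p, hp⟩, h⟩

/-- the generator `t_p` -/
noncomputable def tX (p : PrimeIdx M ℓ) : R1 M ℓ := MvPolynomial.X (Sum.inl p)

/-- the generator `s_d` -/
noncomputable def sX (d : (ZMod M)ˣ) : R1 M ℓ := MvPolynomial.X (Sum.inr d)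

end Fermat.Agent.S48.B.Inst.Index
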