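/-
PROJECT D (S48), part B, block B5, the instance, file 3: THE FORMS SIDE (helper17).

From `Spec.ModEigenData M φ ψ c h a` (a weight-two form `h` on `Γ₁(M)` with nebentypus `ψ`, integral
`q`-expansion `a`, nonzero modulo `ker φ`, eigenvector modulo `ker φ`) to the character
`θ₀ : R1 M ℓ →+* ℤ̄` of the free Hecke ring, `t_p ↦ c_p`, `s_d ↦ ψ(d)`, with

  `r h = 0  →  φ (θ₀ r) = 0`    (`r` acting on `S₂(Γ₁(M))` through `T_p`, `⟨d⟩`).

* `opS : Idx M ℓ → End (S₂(Γ₁(M)))` (helper23's `heckeT`, `diamond`), `opS_comm`;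
* `tSeq p e`, `opK φ ψ : Idx M ℓ → End_κ (ℕ → κ)` the operators on `q`-expansions modulo `ker φ`,
  `opK_comm`;
* `RelQ φ ψ f b` : `f` has nebentypus `ψ` and an integral `q`-expansion reducing to `b`; it is additive
  and compatible with the generators (`relQ_hecke`, `relQ_diamond`), hence with every polynomial;
* `theta0 c ψ`, **`theta0_eq_zero_of_smul_eq_zero`**.
-/
import Mathlib
import Fermat.Agent.S48.B.Defs.Spec
import Fermat.Agent.S48.B.Inst.EvalComm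
import Fermat.Agent.S48.B.Inst.Index
import Fermat.Agent.S48.G1.HeckeOp

set_option autoImplicit false
set_option linter.style.haveILetI false
set_option linter.unusedSectionVars false

noncomputable section

namespace Fermat.Agent.S48.B.Inst.Forms

open CongruenceSubgroup MvPolynomial
open Fermat.Agent.S48.B.Inst.EvalComm Fermat.Agent.S48.B.Inst.Index
open Fermat.Agent.S48.A.Neb
open scoped MatrixGroups ModularForm

local notation "Zbar" => integralClosure ℤ ℂ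

variable {M ℓ : ℕ} [NeZero M]

/-! ### The operators on forms -/

/-- `T_p` (`p ∤ M ℓ`) and `⟨d⟩` on `S₂(Γ₁(M))` -/
def opS : Idx M ℓ → Module.End ℂ (CuspForm (Gamma1 M) 2)
  | Sum.inl p =>
    haveI : Fact ((p.1 : ℕ)).Prime := ⟨p.prime⟩
    Fermat.Agent.S48.G1.heckeT (p.1 : ℕ) p.not_dvd_left
  | Sum.inr d => Fermat.Agent.S48.G1.diamond d

theorem opS_inl (p : PrimeIdx M ℓ) (f : CuspForm (Gamma1 M) 2) :
    haveI : Fact ((p.1 : ℕ)).Prime := ⟨p.prime⟩
    opS (ℓ := ℓ) (Sum.inl p) f = Fermat.Agent.S48.G1.heckeT (p.1 : ℕ) p.not_dvd_left f := rfl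

theorem opS_inr (d : (ZMod M)ˣ) (f : CuspForm (Gamma1 M) 2) :
    opS (ℓ := ℓ) (Sum.inr d) f = Fermat.Agent.S48.G1.diamond d f := rfl

theorem opS_comm (i j : Idx M ℓ) : opS i * opS j = opS j * opS i := by
  rcases i with p | d <;> rcases j with q | e
  · by_cases hpq : p = q
    · rw [hpq]
    · haveI : Fact ((p.1 : ℕ)).Prime := ⟨p.prime⟩
      haveI : Fact ((q.1 : ℕ)).Prime := ⟨q.prime⟩
      have hne : (p.1 : ℕ) ≠ (q.1 : ℕ) := fun h => hpq (Subtype.ext (Subtype.ext h))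
      apply LinearMap.ext
      intro f
      exact Fermat.Agent.S48.G1.heckeT_comm (p.1 : ℕ) (q.1 : ℕ) p.not_dvd_left q.not_dvd_left hne f
  · haveI : Fact ((p.1 : ℕ)).Prime := ⟨p.prime⟩
    exact Fermat.Agent.S48.G1.heckeT_diamond_comm (p.1 : ℕ) p.not_dvd_left e
  · haveI : Fact ((q.1 : ℕ)).Prime := ⟨q.prime⟩
    exact (Fermat.Agent.S48.G1.heckeT_diamond_comm (q.1 : ℕ) q.not_dvd_left d).symm
  · exact Fermat.Agent.S48.G1.diamond_comm d e

/-! ### The operators on `q`-expansions -/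

section Seq

variable {κ : Type*} [Field κ]

/-- the operator `b ↦ (b_{np} + [p ∣ n] e b_{n/p})_n` on sequences -/
def tSeq (p : ℕ) (e : κ) : Module.End κ (ℕ → κ) where
  toFun b n := b (n * p) + if p ∣ n then e * b (n / p) else 0
  map_add' b b' := by
    funext n
    simp only [Pi.add_apply]
    split_ifs <;> ring
  map_smul' c b := by
    funext n
    simp only [Pi.smul_apply, smul_eq_mul, RingHom.id_apply]
    split_ifs <;> ring

theorem tSeq_apply (p : ℕ) (e : κ) (b : ℕ → κ) (n : ℕ) :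
    tSeq p e b n = b (n * p) + if p ∣ n then e * b (n / p) else 0 := rfl

/-- the operators at distinct primes commute -/
theorem tSeq_comm {p q : ℕ} (hp : p.Prime) (hq : q.Prime) (hpq : p ≠ q) (e e' : κ) :
    tSeq p e * tSeq q e' = tSeq q e' * tSeq p e := by
  have hcop : Nat.Coprime p q := (Nat.coprime_primes hp hq).mpr hpq
  have hp0 : 0 < p := hp.pos
  have hq0 : 0 < q := hq.pos
  apply LinearMap.ext
  intro b
  funext n
  rw [Module.End.mul_apply, Module.End.mul_apply, tSeq_apply, tSeq_apply, tSeq_apply, tSeq_apply]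
  have h1 : q ∣ n * p ↔ q ∣ n := hcop.symm.dvd_mul_right
  have h2 : p ∣ n * q ↔ p ∣ n := hcop.dvd_mul_right
  have h3 : n * p * q = n * q * p := by ring
  by_cases hpn : p ∣ n <;> by_cases hqn : q ∣ n
  · obtain ⟨m, rfl⟩ := hpn
    have hqm : q ∣ m := (hcop.symm.dvd_mul_left).mp hqn
    obtain ⟨r, rfl⟩ := hqm
    have e1 : p * (q * r) * p / q = p * r * p := by
      rw [show p * (q * r) * p = q * (p * r * p) by ring, Nat.mul_div_cancel_left _ hq0]
    have e2 : p * (q * r) * q / p = q * r * q := by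
      rw [show p * (q * r) * q = p * (q * r * q) by ring, Nat.mul_div_cancel_left _ hp0]
    have e3 : p * (q * r) / p = q * r := Nat.mul_div_cancel_left _ hp0
    have e4 : p * (q * r) / q = p * r := by
      rw [show p * (q * r) = q * (p * r) by ring, Nat.mul_div_cancel_left _ hq0]
    have e5 : q * r / q = r := Nat.mul_div_cancel_left _ hq0
    have e6 : p * r / p = r := Nat.mul_div_cancel_left _ hp0
    have d1 : q ∣ p * (q * r) * p := ⟨p * r * p, by ring⟩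
    have d2 : p ∣ p * (q * r) * q := ⟨q * r * q, by ring⟩
    have d3 : p ∣ p * (q * r) := ⟨q * r, rfl⟩
    have d4 : q ∣ p * (q * r) := ⟨p * r, by ring⟩
    have d5 : q ∣ q * r := ⟨r, rfl⟩
    have d6 : p ∣ p * r := ⟨r, rfl⟩
    rw [tSeq_apply, tSeq_apply, if_pos d1, if_pos d2, if_pos d3, if_pos d4, e1, e2, e3, e4,
      if_pos d5, if_pos d6, e5, e6, h3]
    ring
  · obtain ⟨m, rfl⟩ := hpn
    have hqm : ¬ q ∣ m := fun h => hqn (Dvd.dvd.mul_left h p)
    have e2 : p * m * q / p = m * q := by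
      rw [show p * m * q = p * (m * q) by ring, Nat.mul_div_cancel_left _ hp0]
    have e3 : p * m / p = m := Nat.mul_div_cancel_left _ hp0
    have d1 : ¬ q ∣ p * m * p := fun h => hqn (h1.mp h)
    have d2 : p ∣ p * m * q := ⟨m * q, by ring⟩
    have d3 : p ∣ p * m := ⟨m, rfl⟩
    rw [tSeq_apply, tSeq_apply, if_neg d1, if_pos d2, if_pos d3, if_neg hqn, e2, e3, if_neg hqm, h3]
    ring
  · obtain ⟨m, rfl⟩ := hqn
    have hpm : ¬ p ∣ m := fun h => hpn (Dvd.dvd.mul_left h q)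
    have e1 : q * m * p / q = m * p := by
      rw [show q * m * p = q * (m * p) by ring, Nat.mul_div_cancel_left _ hq0]
    have e3 : q * m / q = m := Nat.mul_div_cancel_left _ hq0
    have d1 : q ∣ q * m * p := ⟨m * p, by ring⟩
    have d2 : ¬ p ∣ q * m * q := fun h => hpn (h2.mp h)
    have d3 : q ∣ q * m := ⟨m, rfl⟩
    rw [tSeq_apply, tSeq_apply, if_pos d1, if_neg d2, if_neg hpn, if_pos d3, e1, e3, if_neg hpm, h3]
    ring
  · have d1 : ¬ q ∣ n * p := fun h => hqn (h1.mp h)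
    have d2 : ¬ p ∣ n * q := fun h => hpn (h2.mp h)
    rw [tSeq_apply, tSeq_apply, if_neg d1, if_neg d2, if_neg hpn, if_neg hqn, h3]

variable (φ : Zbar →+* κ) (ψ : (ZMod M)ˣ →* Zbarˣ)

/-- the operators `t_p`, `s_d` on sequences with values in `κ` -/
def opK : Idx M ℓ → Module.End κ (ℕ → κ)
  | Sum.inl p => tSeq (p.1 : ℕ) (φ (((p.1 : ℕ) : Zbar) * ((ψ p.unit : Zbarˣ) : Zbar)))
  | Sum.inr d => φ ((ψ d : Zbarˣ) : Zbar) • (1 : Module.End κ (ℕ → κ))

theorem opK_comm (i j : Idx M ℓ) : opK φ ψ i * opK φ ψ j = opK φ ψ j * opK φ ψ i := by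
  rcases i with p | d <;> rcases j with q | e
  · by_cases hpq : p = q
    · rw [hpq]
    · have hne : (p.1 : ℕ) ≠ (q.1 : ℕ) := fun h => hpq (Subtype.ext (Subtype.ext h))
      exact tSeq_comm p.prime q.prime hne _ _
  · show _ * (_ • (1 : Module.End κ (ℕ → κ))) = (_ • (1 : Module.End κ (ℕ → κ))) * _
    rw [mul_smul_comm, smul_mul_assoc, mul_one, one_mul]
  · show (_ • (1 : Module.End κ (ℕ → κ))) * _ = _ * (_ • (1 : Module.End κ (ℕ → κ)))
    rw [mul_smul_comm, smul_mul_assoc, mul_one, one_mul]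
  · show (_ • (1 : Module.End κ (ℕ → κ))) * (_ • (1 : Module.End κ (ℕ → κ))) =
      (_ • (1 : Module.End κ (ℕ → κ))) * (_ • (1 : Module.End κ (ℕ → κ)))
    rw [smul_mul_smul_comm, smul_mul_smul_comm, mul_comm]

end Seq

/-! ### `q`-coefficients of cusp forms -/

section QCoeff

theorem qCoeff_add (f g : CuspForm (Gamma1 M) 2) (n : ℕ) :
    ModularFormClass.qCoeff (⇑(f + g)) n =
      ModularFormClass.qCoeff (⇑f) n + ModularFormClass.qCoeff (⇑g) n := by
  rw [FunLike.coe_add]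
  exact Nice.qCoeff_add (nice_cuspForm f) (nice_cuspForm g) n

theorem qCoeff_smul (c : ℂ) (f : CuspForm (Gamma1 M) 2) (n : ℕ) :
    ModularFormClass.qCoeff (⇑(c • f)) n = c * ModularFormClass.qCoeff (⇑f) n := by
  have h : ⇑(c • f) = c • ⇑f := rfl
  rw [h]
  exact Nice.qCoeff_smul c (nice_cuspForm f) n

theorem qCoeff_zero (n : ℕ) :
    ModularFormClass.qCoeff (⇑(0 : CuspForm (Gamma1 M) 2)) n = 0 := by
  have h := qCoeff_smul (0 : ℂ) (0 : CuspForm (Gamma1 M) 2) n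
  rw [zero_smul, zero_mul] at h
  exact h

theorem qCoeff_neg (f : CuspForm (Gamma1 M) 2) (n : ℕ) :
    ModularFormClass.qCoeff (⇑(-f)) n = -ModularFormClass.qCoeff (⇑f) n := by
  have h := qCoeff_smul (-1 : ℂ) f n
  rw [neg_one_smul, neg_one_mul] at h
  exact h

end QCoeff

/-! ### The relation between forms and sequences -/

section Rel

variable {κ : Type*} [Field κ] (φ : Zbar →+* κ) (ψ : (ZMod M)ˣ →* Zbarˣ)

/-- `f` has nebentypus `ψ` and an integral `q`-expansion whose reduction is `b` -/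
def RelQ (f : CuspForm (Gamma1 M) 2) (b : ℕ → κ) : Prop :=
  (∀ d : (ZMod M)ˣ, Fermat.Agent.S48.G1.diamond d f = ((((ψ d : Zbarˣ) : Zbar) : ℂ)) • f) ∧
    ∃ a : ℕ → Zbar, (∀ n, ((a n : Zbar) : ℂ) = ModularFormClass.qCoeff (⇑f) n) ∧
      b = fun n => φ (a n)

theorem relQ_zero : RelQ φ ψ (0 : CuspForm (Gamma1 M) 2) 0 := by
  refine ⟨fun d => by rw [map_zero, smul_zero], fun _ => 0, fun n => ?_, ?_⟩
  · rw [qCoeff_zero]
    rfl
  · funext n
    rw [map_zero]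
    rfl

theorem relQ_add {f g : CuspForm (Gamma1 M) 2} {b b' : ℕ → κ} (h : RelQ φ ψ f b)
    (h' : RelQ φ ψ g b') : RelQ φ ψ (f + g) (b + b') := by
  obtain ⟨hd, a, ha, rfl⟩ := h
  obtain ⟨hd', a', ha', rfl⟩ := h'
  refine ⟨fun d => by rw [map_add, hd, hd', smul_add], fun n => a n + a' n, fun n => ?_, ?_⟩
  · rw [qCoeff_add, ← ha, ← ha']
    rfl
  · funext n
    rw [Pi.add_apply, map_add]

theorem relQ_neg {f : CuspForm (Gamma1 M) 2} {b : ℕ → κ} (h : RelQ φ ψ f b) :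
    RelQ φ ψ (-f) (-b) := by
  obtain ⟨hd, a, ha, rfl⟩ := h
  refine ⟨fun d => by rw [map_neg, hd, smul_neg], fun n => -a n, fun n => ?_, ?_⟩
  · rw [qCoeff_neg, ← ha]
    rfl
  · funext n
    rw [Pi.neg_apply, map_neg]

/-- compatibility with `⟨d⟩` -/
theorem relQ_diamond {f : CuspForm (Gamma1 M) 2} {b : ℕ → κ} (h : RelQ φ ψ f b) (d : (ZMod M)ˣ) :
    RelQ φ ψ (Fermat.Agent.S48.G1.diamond d f) (φ ((ψ d : Zbarˣ) : Zbar) • b) := by
  obtain ⟨hd, a, ha, rfl⟩ := h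
  refine ⟨fun d' => ?_, fun n => ((ψ d : Zbarˣ) : Zbar) * a n, fun n => ?_, ?_⟩
  · rw [Fermat.Agent.S48.G1.diamond_diamond_apply, hd d', map_smul]
  · rw [hd d, qCoeff_smul, ← ha]
    rfl
  · funext n
    rw [Pi.smul_apply, smul_eq_mul, map_mul]

/-- compatibility with `T_p` -/
theorem relQ_hecke {f : CuspForm (Gamma1 M) 2} {b : ℕ → κ} (h : RelQ φ ψ f b)
    (p : PrimeIdx M ℓ) :
    haveI : Fact ((p.1 : ℕ)).Prime := ⟨p.prime⟩
    RelQ φ ψ (Fermat.Agent.S48.G1.heckeT (p.1 : ℕ) p.not_dvd_left f)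
      (tSeq (p.1 : ℕ) (φ (((p.1 : ℕ) : Zbar) * ((ψ p.unit : Zbarˣ) : Zbar))) b) := by
  haveI : Fact ((p.1 : ℕ)).Prime := ⟨p.prime⟩
  obtain ⟨hd, a, ha, rfl⟩ := h
  have hc : Fermat.Agent.S48.G1.diamond
      (Fermat.Agent.S48.G1.unitOfPrime (p.1 : ℕ) p.not_dvd_left) f =
        ((((ψ p.unit : Zbarˣ) : Zbar) : ℂ)) • f := hd p.unit
  refine ⟨fun d' => ?_, fun n => a (n * (p.1 : ℕ)) +
    if (p.1 : ℕ) ∣ n then ((p.1 : ℕ) : Zbar) * ((ψ p.unit : Zbarˣ) : Zbar) * a (n / (p.1 : ℕ))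
    else 0, fun n => ?_, ?_⟩
  · rw [Fermat.Agent.S48.G1.diamond_heckeT_apply, hd d', map_smul]
  · rw [Fermat.Agent.S48.G1.qCoeff_heckeT_of_diamond (p.1 : ℕ) p.not_dvd_left f hc n, ← ha, ← ha]
    have h21 : ((2 : ℤ) - 1) = 1 := by norm_num
    beta_reduce
    by_cases hpn : (p.1 : ℕ) ∣ n
    · rw [if_pos hpn, if_pos hpn, h21, zpow_one]
      push_cast
      ring
    · rw [if_neg hpn, if_neg hpn, add_zero, add_zero]
  · funext n
    rw [tSeq_apply]
    beta_reduce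
    by_cases hpn : (p.1 : ℕ) ∣ n
    · rw [if_pos hpn, if_pos hpn, map_add, map_mul φ (_ * _) (a _)]
    · rw [if_neg hpn, if_neg hpn, add_zero, add_zero]

end Rel

/-! ### The character `θ₀` -/

section Theta

open Fermat.Agent.S48.B.Defs.Spec

variable {κ : Type} [Field κ] (φ : Zbar →+* κ) (ψ : (ZMod M)ˣ →* Zbarˣ) (c : ℕ → Zbar)

/-- the eigenvalues `c_p`, `ψ(d)` -/
def eigK : Idx M ℓ → Zbar
  | Sum.inl p => c (p.1 : ℕ)
  | Sum.inr d => ((ψ d : Zbarˣ) : Zbar)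

/-- **the character `θ₀ : ℤ[t_p, s_d] →+* ℤ̄`**, `t_p ↦ c_p`, `s_d ↦ ψ(d)` -/
def theta0 : R1 M ℓ →+* Zbar := evalComm (eigK (ℓ := ℓ) ψ c) (fun _ _ => mul_comm _ _)

theorem theta0_tX (p : PrimeIdx M ℓ) : theta0 ψ c (tX p) = c (p.1 : ℕ) :=
  evalComm_X _ _ _

theorem theta0_sX (d : (ZMod M)ˣ) : theta0 (ℓ := ℓ) ψ c (sX d) = ((ψ d : Zbarˣ) : Zbar) :=
  evalComm_X _ _ _

/-- a common eigenvector of the generators is an eigenvector of every polynomial, with eigenvalue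
`φ (θ₀ r)` -/
theorem evalComm_opK_smul {b : ℕ → κ}
    (hb : ∀ i : Idx M ℓ, opK φ ψ i b = φ (eigK ψ c i) • b) (r : R1 M ℓ) :
    evalComm (opK (ℓ := ℓ) φ ψ) (opK_comm φ ψ) r • b = φ (theta0 ψ c r) • b := by
  have hcomp := comp_evalComm φ (eigK (ℓ := ℓ) ψ c) (fun _ _ => mul_comm _ _)
    (fun _ _ => mul_comm _ _)
  have h1 := evalComm_rel (M₁ := ℕ → κ) (M₂ := ℕ → κ) (opK (ℓ := ℓ) φ ψ) (opK_comm φ ψ)
    (fun i => φ (eigK (ℓ := ℓ) ψ c i)) (fun _ _ => mul_comm _ _)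
    (fun m b' => m = b' ∧ ∃ t : κ, m = t • b) ⟨rfl, 0, (zero_smul κ b).symm⟩ ?_ ?_ ?_ r
    (m := b) (b := b) ⟨rfl, 1, (one_smul κ b).symm⟩
  · rw [h1.1, ← hcomp]
    rfl
  · rintro m m' _ _ ⟨rfl, t, rfl⟩ ⟨rfl, t', rfl⟩
    exact ⟨rfl, t + t', (add_smul t t' b).symm⟩
  · rintro m _ ⟨rfl, t, rfl⟩
    exact ⟨rfl, -t, (neg_smul t b).symm⟩
  · rintro i m _ ⟨rfl, t, rfl⟩
    have h2 : opK φ ψ i • (t • b) = φ (eigK ψ c i) • (t • b) := by
      rw [Module.End.smul_def, map_smul, hb i, smul_comm]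
    exact ⟨h2, φ (eigK ψ c i) * t, by rw [h2, mul_smul]⟩

variable {φ ψ c}

/-- the nebentypus of `ModEigenData` in the diamond form -/
theorem diamond_eq_of_modEigenData {h : CuspForm (Gamma1 M) 2} {a : ℕ → Zbar}
    (hD : ModEigenData M φ ψ c h a) (d : (ZMod M)ˣ) :
    Fermat.Agent.S48.G1.diamond d h = ((((ψ d : Zbarˣ) : Zbar) : ℂ)) • h := by
  apply DFunLike.coe_injective
  rw [Fermat.Agent.S48.G1.coe_diamond]
  have hs := Fermat.Agent.S48.G1.repOf_spec d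
  exact hD.neb (Fermat.Agent.S48.G1.repOf d) hs.mem_Gamma0 d hs.2

theorem relQ_of_modEigenData {h : CuspForm (Gamma1 M) 2} {a : ℕ → Zbar}
    (hD : ModEigenData M φ ψ c h a) : RelQ φ ψ h (fun n => φ (a n)) :=
  ⟨diamond_eq_of_modEigenData hD, a, hD.qexp, rfl⟩

theorem opK_eigen_of_modEigenData {h : CuspForm (Gamma1 M) 2} {a : ℕ → Zbar}
    (hD : ModEigenData M φ ψ c h a) (i : Idx M ℓ) :
    opK φ ψ i (fun n => φ (a n)) = φ (eigK ψ c i) • (fun n => φ (a n)) := by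
  rcases i with p | d
  · funext n
    show tSeq (p.1 : ℕ) _ _ n = _
    rw [tSeq_apply, Pi.smul_apply, smul_eq_mul]
    have h1 := hD.eigen (p.1 : ℕ) p.prime p.coprime n
    have hu : unitOf M (p.1 : ℕ) p.coprime = p.unit := rfl
    rw [hu] at h1
    show _ = φ (c (p.1 : ℕ)) * φ (a n)
    rw [← h1]
    by_cases hpn : (p.1 : ℕ) ∣ n
    · rw [if_pos hpn, if_pos hpn, map_mul φ (_ * _) (a _)]
    · rw [if_neg hpn, if_neg hpn]
  · rfl

/-- **The forms side**: a polynomial in the Hecke and diamond operators which kills `h` lies in the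
kernel of `φ ∘ θ₀`. -/
theorem theta0_eq_zero_of_smul_eq_zero {h : CuspForm (Gamma1 M) 2} {a : ℕ → Zbar}
    (hD : ModEigenData M φ ψ c h a) (r : R1 M ℓ)
    (hr : evalComm (opS (M := M) (ℓ := ℓ)) opS_comm r • h = 0) : φ (theta0 ψ c r) = 0 := by
  have h1 := evalComm_rel (opS (M := M) (ℓ := ℓ)) opS_comm (opK (ℓ := ℓ) φ ψ) (opK_comm φ ψ)
    (RelQ φ ψ) (relQ_zero φ ψ) (fun _ _ _ _ => relQ_add φ ψ) (fun _ _ => relQ_neg φ ψ) ?_ r
    (relQ_of_modEigenData hD)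
  · rw [hr, evalComm_opK_smul φ ψ c (opK_eigen_of_modEigenData hD)] at h1
    obtain ⟨-, a', ha', hb⟩ := h1
    obtain ⟨n, hn⟩ := hD.ne_zero
    have h2 := congrFun hb n
    have h3 : a' n = 0 := by
      apply Subtype.ext
      rw [ha' n, qCoeff_zero]
      rfl
    rw [Pi.smul_apply, smul_eq_mul, h3, map_zero] at h2
    rcases mul_eq_zero.mp h2 with h4 | h4
    · exact h4
    · exact absurd h4 hn
  · rintro (p | d) f b hfb
    · exact relQ_hecke φ ψ hfb p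
    · exact relQ_diamond φ ψ hfb d

end Theta

end Fermat.Agent.S48.B.Inst.Forms
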